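import Mathlib

/-!
# Row LT, tower T7, node T7.13 (ThinC), leaf T7.13j `MSFC`: the abstract core (helper236)

OFF-MAIN.  Mathlib only.  Mean square bound over a principal ring of integers, squarefree form:
from the coefficient relation

  `√(N v) · A v · c ν y = χ ϖ · N v · c (ϖ ν) (y / |e ϖ|)`      (`v = (ϖ) ∤ M`, `ν ≠ 0`, `ϖ ∤ ν`)

Bessel's inequality and one non-vanishing coefficient `c k`, `k ≠ 0`:

  `∑_{T' ⊆ T, N T' ≤ X} ∏_{v ∈ T'} |A v|² ≤ C X`      (`T` away from the places dividing `M k`).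

Model: `LT/H51/MS1.lean` (helper51; block bound + geometric summation).
-/

set_option autoImplicit false
set_option linter.unusedSectionVars false

open IsDedekindDomain NumberField

noncomputable section

namespace Fermat.Agent.LT.T7.H236

variable {K : Type} [Field K] [NumberField K]

/-! ## 1. Places and generators -/

theorem one_le_absNorm236 (v : HeightOneSpectrum (𝓞 K)) :
    (1 : ℝ) ≤ ((Ideal.absNorm v.asIdeal : ℕ) : ℝ) := by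
  have h0 : Ideal.absNorm v.asIdeal ≠ 0 := fun h => v.ne_bot (Ideal.absNorm_eq_zero_iff.mp h)
  exact_mod_cast Nat.one_le_iff_ne_zero.mpr h0

theorem absNorm_pos236 (v : HeightOneSpectrum (𝓞 K)) :
    (0 : ℝ) < ((Ideal.absNorm v.asIdeal : ℕ) : ℝ) :=
  lt_of_lt_of_le one_pos (one_le_absNorm236 v)

/-- The product of the norms of the places in `T'`. -/
def nrmProd236 (T' : Finset (HeightOneSpectrum (𝓞 K))) : ℝ :=
  ∏ v ∈ T', ((Ideal.absNorm v.asIdeal : ℕ) : ℝ)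

theorem one_le_nrmProd236 (T' : Finset (HeightOneSpectrum (𝓞 K))) : 1 ≤ nrmProd236 T' := by
  unfold nrmProd236
  exact Finset.prod_induction _ (fun x : ℝ => 1 ≤ x)
    (fun a b ha hb => one_le_mul_of_one_le_of_one_le ha hb) le_rfl
    (fun v _ => one_le_absNorm236 v)

theorem nrmProd_pos236 (T' : Finset (HeightOneSpectrum (𝓞 K))) : 0 < nrmProd236 T' :=
  lt_of_lt_of_le one_pos (one_le_nrmProd236 T')

section Gen

variable (ϖ : HeightOneSpectrum (𝓞 K) → 𝓞 K)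
  (hϖ : ∀ v : HeightOneSpectrum (𝓞 K), v.asIdeal = Ideal.span {ϖ v})

include hϖ

theorem gen_ne_zero236 (v : HeightOneSpectrum (𝓞 K)) : ϖ v ≠ 0 := by
  intro h
  apply v.ne_bot
  rw [hϖ v, h]
  exact Ideal.span_singleton_eq_bot.mpr rfl

theorem gen_dvd_iff236 (v : HeightOneSpectrum (𝓞 K)) (x : 𝓞 K) :
    ϖ v ∣ x ↔ x ∈ v.asIdeal := by
  rw [hϖ v, Ideal.mem_span_singleton]

theorem gen_prime236 (v : HeightOneSpectrum (𝓞 K)) : Prime (ϖ v) := by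
  have h := v.isPrime
  rw [hϖ v] at h
  exact (Ideal.span_singleton_prime (gen_ne_zero236 ϖ hϖ v)).mp h

theorem gen_not_dvd_gen236 (v w : HeightOneSpectrum (𝓞 K)) (h : v ≠ w) : ¬ ϖ v ∣ ϖ w := by
  intro hd
  apply h
  have hw : ϖ w ∈ v.asIdeal := (gen_dvd_iff236 ϖ hϖ v _).mp hd
  have hle : w.asIdeal ≤ v.asIdeal := by
    rw [hϖ w]
    exact (Ideal.span_singleton_le_iff_mem _).mpr hw
  have he : w.asIdeal = v.asIdeal := w.isMaximal.eq_of_le v.isPrime.ne_top hle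
  exact (HeightOneSpectrum.ext he).symm

/-- The index `k ∏_{v ∈ T'} ϖ_v`. -/
def idx236 (k : 𝓞 K) (T' : Finset (HeightOneSpectrum (𝓞 K))) : 𝓞 K := k * ∏ v ∈ T', ϖ v

omit hϖ in
theorem idx_empty236 (k : 𝓞 K) : idx236 ϖ k ∅ = k := by
  unfold idx236
  rw [Finset.prod_empty, mul_one]

omit hϖ in
theorem idx_insert236 [DecidableEq (HeightOneSpectrum (𝓞 K))] (k : 𝓞 K)
    {T' : Finset (HeightOneSpectrum (𝓞 K))} {v : HeightOneSpectrum (𝓞 K)} (hv : v ∉ T') :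
    idx236 ϖ k (insert v T') = ϖ v * idx236 ϖ k T' := by
  unfold idx236
  rw [Finset.prod_insert hv]
  ring

theorem idx_ne_zero236 {k : 𝓞 K} (hk : k ≠ 0) (T' : Finset (HeightOneSpectrum (𝓞 K))) :
    idx236 ϖ k T' ≠ 0 := by
  unfold idx236
  refine mul_ne_zero hk ?_
  exact Finset.prod_ne_zero_iff.mpr fun v _ => gen_ne_zero236 ϖ hϖ v

theorem not_dvd_idx236 {k : 𝓞 K} {T' : Finset (HeightOneSpectrum (𝓞 K))}
    {v : HeightOneSpectrum (𝓞 K)} (hv : v ∉ T') (hkv : k ∉ v.asIdeal) :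
    ¬ ϖ v ∣ idx236 ϖ k T' := by
  intro h
  unfold idx236 at h
  rcases (gen_prime236 ϖ hϖ v).dvd_or_dvd h with h1 | h2
  · exact hkv ((gen_dvd_iff236 ϖ hϖ v _).mp h1)
  · obtain ⟨w, hw, hvw⟩ := (Prime.dvd_finsetProd_iff (gen_prime236 ϖ hϖ v) _).mp h2
    exact gen_not_dvd_gen236 ϖ hϖ v w (by rintro rfl; exact hv hw) hvw

omit hϖ in
theorem dvd_idx236 {k : 𝓞 K} {T' : Finset (HeightOneSpectrum (𝓞 K))}
    {v : HeightOneSpectrum (𝓞 K)} (hv : v ∈ T') : ϖ v ∣ idx236 ϖ k T' := by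
  unfold idx236
  exact Dvd.dvd.mul_left (Finset.dvd_prod_of_mem _ hv) k

/-- The indices of different subsets of `T` are different (`T` away from the places of `k`). -/
theorem idx_injOn236 {k : 𝓞 K} (T : Finset (HeightOneSpectrum (𝓞 K)))
    (hT : ∀ v ∈ T, k ∉ v.asIdeal) :
    Set.InjOn (idx236 ϖ k) {T' : Finset (HeightOneSpectrum (𝓞 K)) | T' ⊆ T} := by
  have key : ∀ T₁ T₂ : Finset (HeightOneSpectrum (𝓞 K)), T₁ ⊆ T → T₂ ⊆ T →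
      idx236 ϖ k T₁ = idx236 ϖ k T₂ → T₁ ⊆ T₂ := by
    intro T₁ T₂ h1 _ he v hv
    by_contra hv2
    have hd : ϖ v ∣ idx236 ϖ k T₂ := he ▸ dvd_idx236 ϖ hv
    exact not_dvd_idx236 ϖ hϖ hv2 (hT v (h1 hv)) hd
  intro T₁ h1 T₂ h2 he
  exact Finset.Subset.antisymm (key T₁ T₂ h1 h2 he) (key T₂ T₁ h2 h1 he.symm)

end Gen

/-! ## 2. The coefficient relation in norm form and universality -/

section Coeff

variable (e : K →+* ℂ) (M : ℕ) (A : HeightOneSpectrum (𝓞 K) → ℂ) (χ : 𝓞 K → ℂ)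
  (c : 𝓞 K → ℝ → ℂ)
  (hN : ∀ x : 𝓞 K, ‖e (x : K)‖ ^ 2 = ((Ideal.absNorm (Ideal.span {x}) : ℕ) : ℝ))
  (chi_norm : ∀ (v : HeightOneSpectrum (𝓞 K)) (ϖ : 𝓞 K), v.asIdeal = Ideal.span {ϖ} →
    ((M : ℕ) : 𝓞 K) ∉ v.asIdeal → ‖χ ϖ‖ = 1)
  (star : ∀ (v : HeightOneSpectrum (𝓞 K)) (ϖ : 𝓞 K), v.asIdeal = Ideal.span {ϖ} →
    ((M : ℕ) : 𝓞 K) ∉ v.asIdeal → ∀ ν : 𝓞 K, ν ≠ 0 → ¬ ϖ ∣ ν → ∀ y : ℝ, 0 < y →
      ((Real.sqrt ((Ideal.absNorm v.asIdeal : ℕ) : ℝ) : ℝ) : ℂ) * A v * c ν y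
        = χ ϖ * ((((Ideal.absNorm v.asIdeal : ℕ) : ℝ) : ℝ) : ℂ) * c (ϖ * ν) (y / ‖e (ϖ : K)‖))

include hN in
theorem norm_gen236 (v : HeightOneSpectrum (𝓞 K)) (ϖ : 𝓞 K) (h : v.asIdeal = Ideal.span {ϖ}) :
    ‖e (ϖ : K)‖ = Real.sqrt ((Ideal.absNorm v.asIdeal : ℕ) : ℝ) := by
  rw [h, ← hN ϖ, Real.sqrt_sq (norm_nonneg _)]

include hN chi_norm star in
/-- The coefficient relation, norm form. -/
theorem star_norm236 (v : HeightOneSpectrum (𝓞 K)) (ϖ : 𝓞 K) (h : v.asIdeal = Ideal.span {ϖ})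
    (hM : ((M : ℕ) : 𝓞 K) ∉ v.asIdeal) (ν : 𝓞 K) (hν : ν ≠ 0) (hd : ¬ ϖ ∣ ν) (y : ℝ)
    (hy : 0 < y) :
    ‖A v‖ ^ 2 * ‖c ν (y * ‖e (ϖ : K)‖)‖ ^ 2
      = ((Ideal.absNorm v.asIdeal : ℕ) : ℝ) * ‖c (ϖ * ν) y‖ ^ 2 := by
  have hn : (0 : ℝ) < ((Ideal.absNorm v.asIdeal : ℕ) : ℝ) := absNorm_pos236 v
  have he : ‖e (ϖ : K)‖ = Real.sqrt ((Ideal.absNorm v.asIdeal : ℕ) : ℝ) :=
    norm_gen236 e hN v ϖ h
  have hepos : 0 < ‖e (ϖ : K)‖ := by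
    rw [he]
    exact Real.sqrt_pos.mpr hn
  have hs := star v ϖ h hM ν hν hd (y * ‖e (ϖ : K)‖) (mul_pos hy hepos)
  rw [mul_div_assoc, div_self hepos.ne', mul_one] at hs
  have hs' := congrArg norm hs
  rw [norm_mul, norm_mul, norm_mul, norm_mul, chi_norm v ϖ h hM, one_mul, Complex.norm_real,
    Complex.norm_real, Real.norm_of_nonneg (Real.sqrt_nonneg _), Real.norm_of_nonneg hn.le]
    at hs'
  have hsq : (Real.sqrt ((Ideal.absNorm v.asIdeal : ℕ) : ℝ)) ^ 2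
      = ((Ideal.absNorm v.asIdeal : ℕ) : ℝ) := Real.sq_sqrt hn.le
  have h2 : ((Ideal.absNorm v.asIdeal : ℕ) : ℝ) * (‖A v‖ ^ 2 * ‖c ν (y * ‖e (ϖ : K)‖)‖ ^ 2)
      = ((Ideal.absNorm v.asIdeal : ℕ) : ℝ)
        * (((Ideal.absNorm v.asIdeal : ℕ) : ℝ) * ‖c (ϖ * ν) y‖ ^ 2) := by
    calc ((Ideal.absNorm v.asIdeal : ℕ) : ℝ) * (‖A v‖ ^ 2 * ‖c ν (y * ‖e (ϖ : K)‖)‖ ^ 2)
        = (Real.sqrt ((Ideal.absNorm v.asIdeal : ℕ) : ℝ) * ‖A v‖
            * ‖c ν (y * ‖e (ϖ : K)‖)‖) ^ 2 := by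
          rw [mul_pow, mul_pow, hsq]
          ring
      _ = (((Ideal.absNorm v.asIdeal : ℕ) : ℝ) * ‖c (ϖ * ν) y‖) ^ 2 := by rw [hs']
      _ = _ := by ring
  exact mul_left_cancel₀ hn.ne' h2

variable (ϖ : HeightOneSpectrum (𝓞 K) → 𝓞 K)
  (hϖ : ∀ v : HeightOneSpectrum (𝓞 K), v.asIdeal = Ideal.span {ϖ v})

include hN chi_norm star hϖ in
/-- **Universality**, norm form:
`N T' · |c (k ∏_{T'} ϖ_v) y|² = ∏_{T'} |A v|² · |c k (y √(N T'))|²`. -/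
theorem universality236 {k : 𝓞 K} (hk : k ≠ 0) (T' : Finset (HeightOneSpectrum (𝓞 K)))
    (hT' : ∀ v ∈ T', ((M : ℕ) : 𝓞 K) ∉ v.asIdeal ∧ k ∉ v.asIdeal) :
    ∀ y : ℝ, 0 < y →
      nrmProd236 T' * ‖c (idx236 ϖ k T') y‖ ^ 2
        = (∏ v ∈ T', ‖A v‖ ^ 2) * ‖c k (y * Real.sqrt (nrmProd236 T'))‖ ^ 2 := by
  classical
  induction T' using Finset.induction_on with
  | empty =>
    intro y _
    rw [idx_empty236]
    unfold nrmProd236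
    rw [Finset.prod_empty, Finset.prod_empty, Real.sqrt_one, mul_one]
  | insert v T' hv ih =>
    intro y hy
    have hT'' : ∀ w ∈ T', ((M : ℕ) : 𝓞 K) ∉ w.asIdeal ∧ k ∉ w.asIdeal :=
      fun w hw => hT' w (Finset.mem_insert_of_mem hw)
    obtain ⟨hMv, hkv⟩ := hT' v (Finset.mem_insert_self v T')
    have hn : (0 : ℝ) < ((Ideal.absNorm v.asIdeal : ℕ) : ℝ) := absNorm_pos236 v
    have he : ‖e ((ϖ v : 𝓞 K) : K)‖ = Real.sqrt ((Ideal.absNorm v.asIdeal : ℕ) : ℝ) :=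
      norm_gen236 e hN v (ϖ v) (hϖ v)
    have hepos : 0 < ‖e ((ϖ v : 𝓞 K) : K)‖ := by
      rw [he]
      exact Real.sqrt_pos.mpr hn
    have hst := star_norm236 e M A χ c hN chi_norm star v (ϖ v) (hϖ v) hMv (idx236 ϖ k T')
      (idx_ne_zero236 ϖ hϖ hk T') (not_dvd_idx236 ϖ hϖ hv hkv) y hy
    have hih := ih hT'' (y * ‖e ((ϖ v : 𝓞 K) : K)‖) (mul_pos hy hepos)
    have hNins : nrmProd236 (insert v T')
        = ((Ideal.absNorm v.asIdeal : ℕ) : ℝ) * nrmProd236 T' := by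
      unfold nrmProd236
      rw [Finset.prod_insert hv]
    have hsqrt : y * Real.sqrt (nrmProd236 (insert v T'))
        = y * ‖e ((ϖ v : 𝓞 K) : K)‖ * Real.sqrt (nrmProd236 T') := by
      rw [hNins, Real.sqrt_mul hn.le, he]
      ring
    rw [idx_insert236 ϖ k hv, Finset.prod_insert hv, hsqrt, hNins]
    calc ((Ideal.absNorm v.asIdeal : ℕ) : ℝ) * nrmProd236 T'
          * ‖c (ϖ v * idx236 ϖ k T') y‖ ^ 2
        = nrmProd236 T'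
          * (((Ideal.absNorm v.asIdeal : ℕ) : ℝ) * ‖c (ϖ v * idx236 ϖ k T') y‖ ^ 2) := by
          ring
      _ = nrmProd236 T'
          * (‖A v‖ ^ 2 * ‖c (idx236 ϖ k T') (y * ‖e ((ϖ v : 𝓞 K) : K)‖)‖ ^ 2) := by
          rw [hst]
      _ = ‖A v‖ ^ 2
          * (nrmProd236 T' * ‖c (idx236 ϖ k T') (y * ‖e ((ϖ v : 𝓞 K) : K)‖)‖ ^ 2) := by
          ring
      _ = ‖A v‖ ^ 2 * ((∏ w ∈ T', ‖A w‖ ^ 2)
          * ‖c k (y * ‖e ((ϖ v : 𝓞 K) : K)‖ * Real.sqrt (nrmProd236 T'))‖ ^ 2) := by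
          rw [hih]
      _ = _ := by ring


/-! ## 3. The block bound -/

variable (M₁ : ℝ)
  (bessel : ∀ y : ℝ, 0 < y → ∀ F : Finset (𝓞 K), ∑ ν ∈ F, ‖c ν y‖ ^ 2 ≤ M₁ ^ 2)

include hN chi_norm star hϖ bessel in
/-- **Block bound**: Bessel's inequality at the height `t₂ / √X`. -/
theorem block236 {k : 𝓞 K} (hk : k ≠ 0) {t₁ t₂ δ : ℝ} (ht₁ : 0 < t₁) (ht : t₁ < t₂)
    (hδ : 0 < δ) (hlow : ∀ t : ℝ, t₁ ≤ t → t ≤ t₂ → δ ≤ ‖c k t‖)
    (T : Finset (HeightOneSpectrum (𝓞 K)))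
    (hT : ∀ v ∈ T, ((M : ℕ) : 𝓞 K) ∉ v.asIdeal ∧ k ∉ v.asIdeal)
    (X : ℝ) (hX : 0 < X) (G : Finset (Finset (HeightOneSpectrum (𝓞 K))))
    (hG : ∀ T' ∈ G, T' ⊆ T ∧ X * t₁ ^ 2 ≤ t₂ ^ 2 * nrmProd236 T' ∧ nrmProd236 T' ≤ X) :
    ∑ T' ∈ G, ∏ v ∈ T', ‖A v‖ ^ 2 ≤ X * (M₁ ^ 2 / δ ^ 2) := by
  classical
  have ht₂ : 0 < t₂ := ht₁.trans ht
  have hsX : 0 < Real.sqrt X := Real.sqrt_pos.mpr hX
  set y : ℝ := t₂ / Real.sqrt X with hy_def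
  have hy : 0 < y := div_pos ht₂ hsX
  have hterm : ∀ T' ∈ G, (∏ v ∈ T', ‖A v‖ ^ 2) * (δ ^ 2 / X) ≤ ‖c (idx236 ϖ k T') y‖ ^ 2 := by
    intro T' hT'
    obtain ⟨hsub, hlo, hhi⟩ := hG T' hT'
    have hNpos : 0 < nrmProd236 T' := nrmProd_pos236 T'
    have huni := universality236 e M A χ c hN chi_norm star ϖ hϖ hk T'
      (fun v hv => hT v (hsub hv)) y hy
    -- the height `y √(N T')` lies in `[t₁, t₂]`
    have hs2 : y * Real.sqrt (nrmProd236 T') ≤ t₂ := by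
      rw [hy_def, div_mul_eq_mul_div, div_le_iff₀ hsX]
      exact mul_le_mul_of_nonneg_left (Real.sqrt_le_sqrt hhi) ht₂.le
    have hs1 : t₁ ≤ y * Real.sqrt (nrmProd236 T') := by
      rw [hy_def, div_mul_eq_mul_div, le_div_iff₀ hsX]
      have h1 : t₁ * Real.sqrt X = Real.sqrt (X * t₁ ^ 2) := by
        rw [Real.sqrt_mul hX.le, Real.sqrt_sq ht₁.le]
        ring
      have h2 : t₂ * Real.sqrt (nrmProd236 T') = Real.sqrt (t₂ ^ 2 * nrmProd236 T') := by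
        rw [Real.sqrt_mul (by positivity), Real.sqrt_sq ht₂.le]
      rw [h1, h2]
      exact Real.sqrt_le_sqrt hlo
    have hlw := hlow _ hs1 hs2
    have h3 : δ ^ 2 ≤ ‖c k (y * Real.sqrt (nrmProd236 T'))‖ ^ 2 :=
      pow_le_pow_left₀ hδ.le hlw 2
    have hP : 0 ≤ ∏ v ∈ T', ‖A v‖ ^ 2 := Finset.prod_nonneg fun v _ => by positivity
    have h4 : (∏ v ∈ T', ‖A v‖ ^ 2) * δ ^ 2 ≤ X * ‖c (idx236 ϖ k T') y‖ ^ 2 := by
      calc (∏ v ∈ T', ‖A v‖ ^ 2) * δ ^ 2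
          ≤ (∏ v ∈ T', ‖A v‖ ^ 2) * ‖c k (y * Real.sqrt (nrmProd236 T'))‖ ^ 2 :=
            mul_le_mul_of_nonneg_left h3 hP
        _ = nrmProd236 T' * ‖c (idx236 ϖ k T') y‖ ^ 2 := huni.symm
        _ ≤ X * ‖c (idx236 ϖ k T') y‖ ^ 2 :=
            mul_le_mul_of_nonneg_right hhi (by positivity)
    rw [← mul_div_assoc, div_le_iff₀ hX, mul_comm (‖c (idx236 ϖ k T') y‖ ^ 2)]
    exact h4
  have hinj : Set.InjOn (idx236 ϖ k) (G : Set (Finset (HeightOneSpectrum (𝓞 K)))) := by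
    intro T₁ h1 T₂ h2 he
    exact idx_injOn236 ϖ hϖ T (fun v hv => (hT v hv).2) (hG T₁ h1).1 (hG T₂ h2).1 he
  have hbes := bessel y hy (G.image (idx236 ϖ k))
  rw [Finset.sum_image hinj] at hbes
  have hsum : ∑ T' ∈ G, (∏ v ∈ T', ‖A v‖ ^ 2) * (δ ^ 2 / X) ≤ M₁ ^ 2 :=
    (Finset.sum_le_sum hterm).trans hbes
  rw [← Finset.sum_mul] at hsum
  have hc0 : 0 < δ ^ 2 / X := div_pos (by positivity) hX
  have h6 : ∑ T' ∈ G, ∏ v ∈ T', ‖A v‖ ^ 2 ≤ M₁ ^ 2 / (δ ^ 2 / X) := by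
    rw [le_div_iff₀ hc0]
    exact hsum
  have h7 : M₁ ^ 2 / (δ ^ 2 / X) = X * (M₁ ^ 2 / δ ^ 2) := by
    field_simp
  rw [h7] at h6
  exact h6

end Coeff

/-! ## 4. The geometric summation -/

/-- A continuous function which does not vanish at a point is bounded below on an interval. -/
theorem exists_interval236 {f : ℝ → ℂ} (hf : ContinuousOn f (Set.Ioi 0)) {y : ℝ}
    (hy : 0 < y) (hne : f y ≠ 0) :
    ∃ t₁ t₂ δ : ℝ, 0 < t₁ ∧ t₁ < t₂ ∧ 0 < δ ∧ ∀ t : ℝ, t₁ ≤ t → t ≤ t₂ → δ ≤ ‖f t‖ := by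
  have hc : ContinuousAt f y := hf.continuousAt (Ioi_mem_nhds hy)
  have hpos : 0 < ‖f y‖ := norm_pos_iff.mpr hne
  obtain ⟨ε, hε, hball⟩ := Metric.continuousAt_iff.mp hc (‖f y‖ / 2) (by positivity)
  refine ⟨y, y + ε / 2, ‖f y‖ / 2, hy, by linarith, by positivity, fun t ht1 ht2 => ?_⟩
  have hd : dist t y < ε := by
    rw [Real.dist_eq, abs_lt]
    constructor <;> linarith
  have h := hball hd
  rw [dist_eq_norm] at h
  have h2 : ‖f y‖ ≤ ‖f t‖ + ‖f t - f y‖ := by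
    have := norm_sub_le (f t) (f t - f y)
    rw [sub_sub_cancel] at this
    exact this
  linarith

/-- The partial sums over the subsets `T'` of `T` with `N T' ≤ X`. -/
def msfSum236 (A : HeightOneSpectrum (𝓞 K) → ℂ) (T : Finset (HeightOneSpectrum (𝓞 K)))
    (X : ℝ) : ℝ :=
  ∑ T' ∈ T.powerset.filter (fun T' => nrmProd236 T' ≤ X), ∏ v ∈ T', ‖A v‖ ^ 2

theorem msfSum_eq_zero236 (A : HeightOneSpectrum (𝓞 K) → ℂ)
    (T : Finset (HeightOneSpectrum (𝓞 K))) {X : ℝ} (hX : X < 1) : msfSum236 A T X = 0 := by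
  unfold msfSum236
  have : T.powerset.filter (fun T' => nrmProd236 T' ≤ X) = ∅ := by
    refine Finset.filter_eq_empty_iff.mpr fun T' _ h => ?_
    exact absurd (lt_of_le_of_lt (one_le_nrmProd236 T') (lt_of_le_of_lt h hX)) (lt_irrefl _)
  rw [this, Finset.sum_empty]

/-- Abstract geometric summation: `f X ≤ f (r X) + B X`, `f = 0` on `[0, 1)` give
`f X ≤ B / (1 - r) · X`. -/
theorem geom_sum236 (f : ℝ → ℝ) (r B : ℝ) (hr0 : 0 < r) (hr1 : r < 1) (hB : 0 ≤ B)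
    (h0 : ∀ X : ℝ, X < 1 → f X = 0) (hstep : ∀ X : ℝ, 0 < X → f X ≤ f (r * X) + X * B) :
    ∀ X : ℝ, 0 ≤ X → f X ≤ B / (1 - r) * X := by
  have h1r : 0 < 1 - r := by linarith
  have hC : 0 ≤ B / (1 - r) := div_nonneg hB h1r.le
  have key : ∀ j : ℕ, ∀ X : ℝ, 0 ≤ X → r ^ j * X < 1 → f X ≤ B / (1 - r) * X := by
    intro j
    induction j with
    | zero =>
      intro X hX0 hX
      rw [pow_zero, one_mul] at hX
      rw [h0 X hX]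
      exact mul_nonneg hC hX0
    | succ j ih =>
      intro X hX0 hX
      rcases lt_or_ge X 1 with h1 | h1
      · rw [h0 X h1]
        exact mul_nonneg hC hX0
      · have hXpos : 0 < X := lt_of_lt_of_le one_pos h1
        have hs := hstep X hXpos
        have hih := ih (r * X) (mul_nonneg hr0.le hX0) (by
          rw [← mul_assoc, ← pow_succ]
          exact hX)
        have e : B / (1 - r) * (r * X) + X * B = B / (1 - r) * X := by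
          field_simp
          ring
        linarith
  intro X hX
  rcases eq_or_lt_of_le hX with h | h
  · exact key 0 X hX (by rw [← h]; simp)
  · obtain ⟨j, hj⟩ := exists_pow_lt_of_lt_one (one_div_pos.mpr h) hr1
    refine key j X hX ?_
    rw [lt_div_iff₀ h] at hj
    exact hj

/-! ## 5. The mean square bound -/

/-- **The abstract mean square bound over `𝓞 K`, squarefree form** (core of leaf T7.13j). -/
theorem msf_core236 (hpid : IsPrincipalIdealRing (𝓞 K))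
    (e : K →+* ℂ) (M : ℕ) (A : HeightOneSpectrum (𝓞 K) → ℂ) (χ : 𝓞 K → ℂ)
    (c : 𝓞 K → ℝ → ℂ) (M₁ : ℝ) (hM : 0 < M)
    (hN : ∀ x : 𝓞 K, ‖e (x : K)‖ ^ 2 = ((Ideal.absNorm (Ideal.span {x}) : ℕ) : ℝ))
    (chi_norm : ∀ (v : HeightOneSpectrum (𝓞 K)) (ϖ : 𝓞 K), v.asIdeal = Ideal.span {ϖ} →
      ((M : ℕ) : 𝓞 K) ∉ v.asIdeal → ‖χ ϖ‖ = 1)
    (cont : ∀ ν : 𝓞 K, ContinuousOn (c ν) (Set.Ioi 0))
    (bessel : ∀ y : ℝ, 0 < y → ∀ F : Finset (𝓞 K), ∑ ν ∈ F, ‖c ν y‖ ^ 2 ≤ M₁ ^ 2)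
    (star : ∀ (v : HeightOneSpectrum (𝓞 K)) (ϖ : 𝓞 K), v.asIdeal = Ideal.span {ϖ} →
      ((M : ℕ) : 𝓞 K) ∉ v.asIdeal → ∀ ν : 𝓞 K, ν ≠ 0 → ¬ ϖ ∣ ν → ∀ y : ℝ, 0 < y →
        ((Real.sqrt ((Ideal.absNorm v.asIdeal : ℕ) : ℝ) : ℝ) : ℂ) * A v * c ν y
          = χ ϖ * ((((Ideal.absNorm v.asIdeal : ℕ) : ℝ) : ℝ) : ℂ)
            * c (ϖ * ν) (y / ‖e (ϖ : K)‖))
    (hk : ∃ k : 𝓞 K, k ≠ 0 ∧ ∃ y : ℝ, 0 < y ∧ c k y ≠ 0) :
    ∃ (S : Finset (HeightOneSpectrum (𝓞 K))) (C : ℝ),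
      ∀ T : Finset (HeightOneSpectrum (𝓞 K)), Disjoint T S → ∀ X : ℝ, 1 ≤ X →
        ∑ T' ∈ T.powerset.filter
            (fun T' => ∏ v ∈ T', ((Ideal.absNorm v.asIdeal : ℕ) : ℝ) ≤ X),
          ∏ v ∈ T', ‖A v‖ ^ 2 ≤ C * X := by
  classical
  obtain ⟨k, hk0, y₀, hy₀, hky⟩ := hk
  obtain ⟨t₁, t₂, δ, ht₁, ht, hδ, hlow⟩ := exists_interval236 (cont k) hy₀ hky
  have ht₂ : 0 < t₂ := ht₁.trans ht
  -- generators
  have hgen : ∀ v : HeightOneSpectrum (𝓞 K), ∃ ϖ : 𝓞 K, v.asIdeal = Ideal.span {ϖ} :=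
    fun v => (IsPrincipalIdealRing.principal v.asIdeal).principal
  choose ϖ hϖ using hgen
  -- the exceptional set
  have hMk : ((M : ℕ) : 𝓞 K) * k ≠ 0 :=
    mul_ne_zero (Nat.cast_ne_zero.mpr hM.ne') hk0
  have hI : (Ideal.span {((M : ℕ) : 𝓞 K) * k} : Ideal (𝓞 K)) ≠ 0 := by
    rw [Ne, Ideal.zero_eq_bot, Ideal.span_singleton_eq_bot]
    exact hMk
  have hfin : {v : HeightOneSpectrum (𝓞 K) |
      v.asIdeal ∣ Ideal.span {((M : ℕ) : 𝓞 K) * k}}.Finite := Ideal.finite_factors hI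
  have hS : ∀ v : HeightOneSpectrum (𝓞 K), v ∉ hfin.toFinset →
      ((M : ℕ) : 𝓞 K) ∉ v.asIdeal ∧ k ∉ v.asIdeal := by
    intro v hv
    rw [Set.Finite.mem_toFinset, Set.mem_ofPred_eq, Ideal.dvd_iff_le,
      Ideal.span_singleton_le_iff_mem] at hv
    exact ⟨fun h => hv (v.asIdeal.mul_mem_right _ h), fun h => hv (v.asIdeal.mul_mem_left _ h)⟩
  set r : ℝ := t₁ ^ 2 / t₂ ^ 2 with hr_def
  have hr0 : 0 < r := by positivity
  have hr1 : r < 1 := by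
    rw [hr_def, div_lt_one (by positivity)]
    exact pow_lt_pow_left₀ ht ht₁.le (by norm_num)
  have hB : 0 ≤ M₁ ^ 2 / δ ^ 2 := by positivity
  refine ⟨hfin.toFinset, M₁ ^ 2 / δ ^ 2 / (1 - r), fun T hT X hX => ?_⟩
  have hT' : ∀ v ∈ T, ((M : ℕ) : 𝓞 K) ∉ v.asIdeal ∧ k ∉ v.asIdeal :=
    fun v hv => hS v (Finset.disjoint_left.mp hT hv)
  have hstep : ∀ X : ℝ, 0 < X →
      msfSum236 A T X ≤ msfSum236 A T (r * X) + X * (M₁ ^ 2 / δ ^ 2) := by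
    intro X hX
    set G : Finset (Finset (HeightOneSpectrum (𝓞 K))) :=
      T.powerset.filter (fun T' => r * X < nrmProd236 T' ∧ nrmProd236 T' ≤ X) with hG_def
    have hG : ∀ T' ∈ G, T' ⊆ T ∧ X * t₁ ^ 2 ≤ t₂ ^ 2 * nrmProd236 T' ∧ nrmProd236 T' ≤ X := by
      intro T' hT'
      rw [hG_def, Finset.mem_filter, Finset.mem_powerset] at hT'
      obtain ⟨h1, h2, h3⟩ := hT'
      refine ⟨h1, ?_, h3⟩
      have h4 : t₁ ^ 2 / t₂ ^ 2 * X < nrmProd236 T' := h2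
      rw [div_mul_eq_mul_div, div_lt_iff₀ (by positivity)] at h4
      linarith
    have hblock := block236 e M A χ c hN chi_norm star ϖ hϖ M₁ bessel hk0 ht₁ ht hδ hlow T hT'
      X hX G hG
    have hsub : T.powerset.filter (fun T' => nrmProd236 T' ≤ X)
        ⊆ T.powerset.filter (fun T' => nrmProd236 T' ≤ r * X) ∪ G := by
      intro T' hT'
      rw [Finset.mem_filter] at hT'
      rw [Finset.mem_union, Finset.mem_filter, hG_def, Finset.mem_filter]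
      by_cases h : nrmProd236 T' ≤ r * X
      · exact Or.inl ⟨hT'.1, h⟩
      · exact Or.inr ⟨hT'.1, lt_of_not_ge h, hT'.2⟩
    have hnn : ∀ T' : Finset (HeightOneSpectrum (𝓞 K)), 0 ≤ ∏ v ∈ T', ‖A v‖ ^ 2 :=
      fun T' => Finset.prod_nonneg fun v _ => by positivity
    unfold msfSum236
    calc ∑ T' ∈ T.powerset.filter (fun T' => nrmProd236 T' ≤ X), ∏ v ∈ T', ‖A v‖ ^ 2
        ≤ ∑ T' ∈ T.powerset.filter (fun T' => nrmProd236 T' ≤ r * X) ∪ G,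
            ∏ v ∈ T', ‖A v‖ ^ 2 :=
          Finset.sum_le_sum_of_subset_of_nonneg hsub (fun T' _ _ => hnn T')
      _ ≤ ∑ T' ∈ T.powerset.filter (fun T' => nrmProd236 T' ≤ r * X), ∏ v ∈ T', ‖A v‖ ^ 2
            + ∑ T' ∈ G, ∏ v ∈ T', ‖A v‖ ^ 2 := by
          have h := Finset.sum_union_inter
            (s₁ := T.powerset.filter (fun T' => nrmProd236 T' ≤ r * X)) (s₂ := G)
            (f := fun T' => ∏ v ∈ T', ‖A v‖ ^ 2)
          have h0 : 0 ≤ ∑ T' ∈ T.powerset.filter (fun T' => nrmProd236 T' ≤ r * X) ∩ G,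
              ∏ v ∈ T', ‖A v‖ ^ 2 := Finset.sum_nonneg fun T' _ => hnn T'
          linarith
      _ ≤ ∑ T' ∈ T.powerset.filter (fun T' => nrmProd236 T' ≤ r * X), ∏ v ∈ T', ‖A v‖ ^ 2
            + X * (M₁ ^ 2 / δ ^ 2) := by linarith
  have hfinal := geom_sum236 (msfSum236 A T) r (M₁ ^ 2 / δ ^ 2) hr0 hr1 hB
    (fun X hX => msfSum_eq_zero236 A T hX) hstep X (le_trans zero_le_one hX)
  exact hfinal

end Fermat.Agent.LT.T7.H236

end
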