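import Mathlib
import Fermat.Agent.LT.T7.H37.ThinSpec
import Fermat.Agent.LT.T7.H236.MSFCore

/-!
# Row LT, tower T7, node T7.13 (ThinC), leaf T7.13j `MSFC` (helper236), registry row 1276

OFF-MAIN.  `msfC236 : Fermat.Agent.LT.T7.H37.MSFC`, VERBATIM vs `LT/T7/H37/ThinSpec.lean`
(helper37@8584ef06e, sha256 4c697dce), UNCONDITIONAL.  The proof is `msf_core236`
(`MSFCore.lean`, Mathlib only): universality in norm form by induction on `T'`, the indices
`k ∏_{v ∈ T'} ϖ_v` are pairwise different, Bessel's inequality at the height `t₂ / √X`,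
geometric summation over the blocks `r X < N T' ≤ X`, `r = (t₁ / t₂)²`.
-/

set_option autoImplicit false

open IsDedekindDomain NumberField

namespace Fermat.Agent.LT.T7.H236

open Fermat.Agent.LT.T7.H37

/-- **Leaf T7.13j `MSFC`** (abstract mean square bound over `𝓞 K`, squarefree form). -/
theorem msfC236 : MSFC := by
  intro K _ _ hpid e M A χ c M₁ hM hN hD hk
  exact msf_core236 hpid e M A χ c M₁ hM hN hD.chi_norm hD.cont hD.bessel hD.star hk

end Fermat.Agent.LT.T7.H236
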