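import Mathlib
import Fermat.Agent.LT.T7.H568.IdeleSpec

/-!
# Row LT, tower T7, leaf T7.14.6c.2 `KirValC568` (helper236)

OFF-MAIN.  `kirValC236 (K) : H568.NormValC568 K → H568.KirValC568 K` (the ALLOWED FORM of the
registry row 1819), VERBATIM against `LT/T7/H568/IdeleSpec.lean` (helper568@4cfb36664, sha256
`ce2f0c61…`) on `LT/T7/H62/RigidStrip.lean` (`9f2a8c04…`), byte-identical copies.

Route: an idele is a unit at almost all places (`finite_ordI236`), so all the `finprod`s are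
finite products over the places where `ord_v y ≠ 0`; off the support either the cell condition
fails or one local factor vanishes; on the support `ord_v (idl y) = ord_v y` outside `S` and `0`
on `S` (`ordAt_finprod236`), `N(idl y) = ∏ N v ^ ord_v y` (`absNorm_finprod236`), the squares of
the factors `N v ^ (-ord_v y / 2)` give `N(idl y)⁻¹`, `archProfile² = ∏ r_w² · archW` and
`NormValC568` gives `|y|_𝔸 = ∏ r_w² · t₀ / N(idl y)` (`mult = 2`, `K` totally complex).
-/

set_option autoImplicit false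
set_option linter.unusedSectionVars false
set_option linter.unusedVariables false

open AutomorphicForm IsDedekindDomain NumberField Filter Topology MeasureTheory
open scoped ComplexConjugate

noncomputable section

namespace Fermat.Agent.LT.T7.H236

open Fermat.Agent.LT.H556 Fermat.Agent.LT.H556.A0 Fermat.Agent.LT.T7 Fermat.Agent.LT.T7.Rigid
open Fermat.Agent.LT.T7.H568

variable {K : Type} [Field K] [NumberField K]

/-! ## 1. An idele is a unit at almost all places -/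

theorem val_eq_one_of_int236 (y : (Adl K)ˣ) (v : HeightOneSpectrum (𝓞 K))
    (ha : (y : Adl K).2 v ∈ v.adicCompletionIntegers K)
    (hb : ((y⁻¹ : (Adl K)ˣ) : Adl K).2 v ∈ v.adicCompletionIntegers K) :
    Valued.v ((y : Adl K).2 v) = 1 := by
  have hmul : (y : Adl K).2 v * ((y⁻¹ : (Adl K)ˣ) : Adl K).2 v = 1 := by
    have h := congrArg (fun x : Adl K => x.2 v) (Units.mul_inv y)
    exact h
  have hval : Valued.v ((y : Adl K).2 v) * Valued.v (((y⁻¹ : (Adl K)ˣ) : Adl K).2 v) = 1 := by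
    rw [← map_mul, hmul, map_one]
  rw [HeightOneSpectrum.mem_adicCompletionIntegers] at ha hb
  rcases lt_or_eq_of_le ha with hlt | heq
  · exfalso
    have h4 : Valued.v ((y : Adl K).2 v) * Valued.v (((y⁻¹ : (Adl K)ˣ) : Adl K).2 v)
        ≤ Valued.v ((y : Adl K).2 v) * 1 := mul_le_mul_right hb _
    rw [hval, mul_one] at h4
    exact absurd (lt_of_le_of_lt h4 hlt) (lt_irrefl _)
  · exact heq

theorem ordI_eq_zero_of_val236 (y : (Adl K)ˣ) (v : HeightOneSpectrum (𝓞 K))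
    (h : Valued.v ((y : Adl K).2 v) = 1) : ordI v y = 0 := by
  unfold ordI
  rw [h]
  simp

theorem finite_ordI236 (y : (Adl K)ˣ) : {v : HeightOneSpectrum (𝓞 K) | ordI v y ≠ 0}.Finite := by
  have h1 : ∀ᶠ v in Filter.cofinite, (y : Adl K).2 v ∈ v.adicCompletionIntegers K :=
    (y : Adl K).2.2
  have h2 : ∀ᶠ v in Filter.cofinite,
      ((y⁻¹ : (Adl K)ˣ) : Adl K).2 v ∈ v.adicCompletionIntegers K :=
    ((y⁻¹ : (Adl K)ˣ) : Adl K).2.2
  have h3 := h1.and h2
  rw [Filter.eventually_cofinite] at h3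
  refine h3.subset ?_
  intro v hv
  simp only [Set.mem_ofPred_eq] at hv ⊢
  intro ⟨ha, hb⟩
  exact hv (ordI_eq_zero_of_val236 y v (val_eq_one_of_int236 y v ha hb))

/-! ## 2. Finite products of prime powers -/

theorem mk_ne236 {v w : HeightOneSpectrum (𝓞 K)} (h : w ≠ v) :
    Associates.mk w.asIdeal ≠ Associates.mk v.asIdeal := fun e =>
  h (HeightOneSpectrum.ext (Associates.mk_injective e))

theorem ordAt_one236 (w : HeightOneSpectrum (𝓞 K)) : ordAt w (1 : Ideal (𝓞 K)) = 0 := by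
  unfold ordAt
  rw [Associates.mk_one, Associates.factors_one]
  exact Associates.count_zero w.associates_irreducible

theorem ordAt_pow_self236 (v : HeightOneSpectrum (𝓞 K)) (m : ℕ) :
    ordAt v (v.asIdeal ^ m) = m := by
  unfold ordAt
  rw [Associates.mk_pow,
    Associates.count_pow (Associates.mk_ne_zero.mpr v.ne_bot) v.associates_irreducible,
    Associates.count_self v.associates_irreducible, mul_one]

theorem ordAt_pow_of_ne236 {v w : HeightOneSpectrum (𝓞 K)} (h : w ≠ v) (m : ℕ) :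
    ordAt w (v.asIdeal ^ m) = 0 := by
  unfold ordAt
  rw [Associates.mk_pow,
    Associates.count_pow (Associates.mk_ne_zero.mpr v.ne_bot) w.associates_irreducible,
    Associates.count_eq_zero_of_ne w.associates_irreducible v.associates_irreducible (mk_ne236 h),
    mul_zero]

theorem ordAt_mul236 (w : HeightOneSpectrum (𝓞 K)) {I J : Ideal (𝓞 K)} (hI : I ≠ ⊥)
    (hJ : J ≠ ⊥) : ordAt w (I * J) = ordAt w I + ordAt w J := by
  unfold ordAt
  rw [← Associates.mk_mul_mk,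
    Associates.count_mul (Associates.mk_ne_zero.mpr hI) (Associates.mk_ne_zero.mpr hJ)
      w.associates_irreducible]

theorem prod_pow_ne_bot236 (e : HeightOneSpectrum (𝓞 K) → ℕ)
    (T : Finset (HeightOneSpectrum (𝓞 K))) : (∏ v ∈ T, v.asIdeal ^ e v) ≠ ⊥ := by
  rw [← Ideal.zero_eq_bot]
  exact Finset.prod_ne_zero_iff.mpr fun v _ => pow_ne_zero _ v.ne_bot

open Classical in
theorem ordAt_prod236 (e : HeightOneSpectrum (𝓞 K) → ℕ)
    (T : Finset (HeightOneSpectrum (𝓞 K))) (w : HeightOneSpectrum (𝓞 K)) :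
    ordAt w (∏ v ∈ T, v.asIdeal ^ e v) = if w ∈ T then e w else 0 := by
  induction T using Finset.induction_on with
  | empty =>
    rw [Finset.prod_empty, ordAt_one236, if_neg (Finset.notMem_empty w)]
  | insert v T hv ih =>
    rw [Finset.prod_insert hv, ordAt_mul236 w (pow_ne_zero _ v.ne_bot) (prod_pow_ne_bot236 e T),
      ih]
    by_cases hwv : w = v
    · subst hwv
      rw [ordAt_pow_self236, if_neg hv, if_pos (Finset.mem_insert_self _ _), add_zero]
    · rw [ordAt_pow_of_ne236 hwv, zero_add]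
      by_cases hwT : w ∈ T
      · rw [if_pos hwT, if_pos (Finset.mem_insert_of_mem hwT)]
      · rw [if_neg hwT, if_neg]
        intro h
        rcases Finset.mem_insert.mp h with h | h
        · exact hwv h
        · exact hwT h

/-- The finite product of prime powers with exponents of finite support, as a product over a
`Finset` containing the support. -/
theorem finprod_pow_eq236 (e : HeightOneSpectrum (𝓞 K) → ℕ)
    (T : Finset (HeightOneSpectrum (𝓞 K))) (hT : ∀ v, e v ≠ 0 → v ∈ T) :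
    (∏ᶠ v : HeightOneSpectrum (𝓞 K), v.asIdeal ^ e v) = ∏ v ∈ T, v.asIdeal ^ e v := by
  refine finprod_eq_prod_of_mulSupport_subset _ ?_
  intro v hv
  rw [Function.mem_mulSupport] at hv
  refine Finset.mem_coe.mpr (hT v ?_)
  intro h0
  exact hv (by rw [h0, pow_zero])

theorem ordAt_finprod236 (e : HeightOneSpectrum (𝓞 K) → ℕ)
    (T : Finset (HeightOneSpectrum (𝓞 K))) (hT : ∀ v, e v ≠ 0 → v ∈ T)
    (w : HeightOneSpectrum (𝓞 K)) :
    ordAt w (∏ᶠ v : HeightOneSpectrum (𝓞 K), v.asIdeal ^ e v) = e w := by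
  rw [finprod_pow_eq236 e T hT, ordAt_prod236]
  split_ifs with h
  · rfl
  · by_contra hne
    exact h (hT w (fun h0 => hne h0.symm))

theorem finprod_pow_ne_bot236 (e : HeightOneSpectrum (𝓞 K) → ℕ)
    (T : Finset (HeightOneSpectrum (𝓞 K))) (hT : ∀ v, e v ≠ 0 → v ∈ T) :
    (∏ᶠ v : HeightOneSpectrum (𝓞 K), v.asIdeal ^ e v) ≠ ⊥ := by
  rw [finprod_pow_eq236 e T hT]
  exact prod_pow_ne_bot236 e T

theorem absNorm_finprod236 (e : HeightOneSpectrum (𝓞 K) → ℕ)
    (T : Finset (HeightOneSpectrum (𝓞 K))) (hT : ∀ v, e v ≠ 0 → v ∈ T) :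
    ((Ideal.absNorm (∏ᶠ v : HeightOneSpectrum (𝓞 K), v.asIdeal ^ e v) : ℕ) : ℝ)
      = ∏ v ∈ T, nv v ^ e v := by
  rw [finprod_pow_eq236 e T hT, map_prod, Nat.cast_prod]
  refine Finset.prod_congr rfl fun v _ => ?_
  rw [map_pow, Nat.cast_pow]
  rfl

theorem nv_pos236 (v : HeightOneSpectrum (𝓞 K)) : 0 < nv v := by
  unfold nv
  have : Ideal.absNorm v.asIdeal ≠ 0 := fun h0 => v.ne_bot (Ideal.absNorm_eq_zero_iff.mp h0)
  exact_mod_cast Nat.pos_of_ne_zero this

/-! ## 3. The exponents of the idele outside `S` -/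

open Classical in
/-- The exponent of `idl568 S y` at `v`. -/
def expo236 (S : Finset (HeightOneSpectrum (𝓞 K))) (y : (Adl K)ˣ)
    (v : HeightOneSpectrum (𝓞 K)) : ℕ :=
  if v ∈ S then 0 else (ordI v y).toNat

theorem expo_mem236 (S : Finset (HeightOneSpectrum (𝓞 K))) (y : (Adl K)ˣ)
    {v : HeightOneSpectrum (𝓞 K)} (h : v ∈ S) : expo236 S y v = 0 := by
  unfold expo236
  rw [if_pos h]

theorem expo_notMem236 (S : Finset (HeightOneSpectrum (𝓞 K))) (y : (Adl K)ˣ)
    {v : HeightOneSpectrum (𝓞 K)} (h : v ∉ S) : expo236 S y v = (ordI v y).toNat := by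
  unfold expo236
  rw [if_neg h]

theorem expo_supp236 (S : Finset (HeightOneSpectrum (𝓞 K))) (y : (Adl K)ˣ)
    (v : HeightOneSpectrum (𝓞 K)) (h : expo236 S y v ≠ 0) :
    v ∈ (finite_ordI236 y).toFinset := by
  rw [Set.Finite.mem_toFinset, Set.mem_ofPred_eq]
  intro h0
  apply h
  by_cases hv : v ∈ S
  · exact expo_mem236 S y hv
  · rw [expo_notMem236 S y hv, h0]
    rfl

theorem idl_eq236 (S : Finset (HeightOneSpectrum (𝓞 K))) (y : (Adl K)ˣ) :
    idl568 S y = ∏ᶠ v : HeightOneSpectrum (𝓞 K), v.asIdeal ^ expo236 S y v := by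
  unfold idl568
  refine finprod_congr fun v => ?_
  by_cases hv : v ∈ S
  · rw [if_pos hv, expo_mem236 S y hv, pow_zero]
  · rw [if_neg hv, expo_notMem236 S y hv]

theorem ordAt_idl236 (S : Finset (HeightOneSpectrum (𝓞 K))) (y : (Adl K)ˣ)
    (w : HeightOneSpectrum (𝓞 K)) : ordAt w (idl568 S y) = expo236 S y w := by
  rw [idl_eq236]
  exact ordAt_finprod236 _ _ (expo_supp236 S y) w

theorem idl_ne_bot236 (S : Finset (HeightOneSpectrum (𝓞 K))) (y : (Adl K)ˣ) :
    idl568 S y ≠ ⊥ := by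
  rw [idl_eq236]
  exact finprod_pow_ne_bot236 _ _ (expo_supp236 S y)

theorem absNorm_idl236 (S : Finset (HeightOneSpectrum (𝓞 K))) (y : (Adl K)ˣ) :
    ((Ideal.absNorm (idl568 S y) : ℕ) : ℝ)
      = ∏ v ∈ (finite_ordI236 y).toFinset, nv v ^ expo236 S y v := by
  rw [idl_eq236]
  exact absNorm_finprod236 _ _ (expo_supp236 S y)

theorem idl_primeTo236 (S : Finset (HeightOneSpectrum (𝓞 K))) (y : (Adl K)ˣ) :
    ¬ (idl568 S y = ⊥ ∨ ∃ v ∈ (S : Set (HeightOneSpectrum (𝓞 K))), idl568 S y ≤ v.asIdeal) := by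
  rintro (h | ⟨v, hv, hle⟩)
  · exact idl_ne_bot236 S y h
  · have h1 : ordAt v (idl568 S y) ≠ 0 := by
      unfold ordAt
      rw [Associates.count_ne_zero_iff_dvd (idl_ne_bot236 S y) v.irreducible, Ideal.dvd_iff_le]
      exact hle
    rw [ordAt_idl236, expo_mem236 S y (Finset.mem_coe.mp hv)] at h1
    exact h1 rfl

/-! ## 4. The finite part of the Kirillov function -/

theorem hpoly_zero236 (a : ℂ) : hpoly a 0 = 1 := rfl

theorem locFactor_zero236 (v : HeightOneSpectrum (𝓞 K)) (a : ℂ) : locFactor v a 0 = 1 := by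
  unfold locFactor
  rw [if_pos le_rfl]
  simp [hpoly_zero236]

theorem locFactor_neg236 (v : HeightOneSpectrum (𝓞 K)) (a : ℂ) {m : ℤ} (h : m < 0) :
    locFactor v a m = 0 := by
  unfold locFactor
  rw [if_neg (not_le.mpr h)]

theorem locFactor_nonneg236 (v : HeightOneSpectrum (𝓞 K)) (a : ℂ) {m : ℤ} (h : 0 ≤ m) :
    locFactor v a m = ((nv v ^ (-(m : ℝ) / 2) : ℝ) : ℂ) * hpoly a m.toNat := by
  unfold locFactor
  rw [if_pos h]

open Classical in
/-- The local factor of `kir` at `v`. -/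
def fac236 (a : HeightOneSpectrum (𝓞 K) → ℂ) (S : Finset (HeightOneSpectrum (𝓞 K)))
    (y : (Adl K)ˣ) (v : HeightOneSpectrum (𝓞 K)) : ℂ :=
  if v ∈ S then 1 else locFactor v (a v) (ordI v y)

open Classical in
/-- The normalising factor `N v ^ (-ord_v y / 2)` at `v ∉ S`. -/
def pf236 (S : Finset (HeightOneSpectrum (𝓞 K))) (y : (Adl K)ˣ)
    (v : HeightOneSpectrum (𝓞 K)) : ℝ :=
  if v ∈ S then 1 else nv v ^ (-(ordI v y : ℝ) / 2)

theorem fac_supp236 (a : HeightOneSpectrum (𝓞 K) → ℂ) (S : Finset (HeightOneSpectrum (𝓞 K)))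
    (y : (Adl K)ˣ) :
    Function.mulSupport (fac236 a S y) ⊆ ((finite_ordI236 y).toFinset : Set _) := by
  intro v hv
  rw [Function.mem_mulSupport] at hv
  rw [Finset.mem_coe, Set.Finite.mem_toFinset, Set.mem_ofPred_eq]
  intro h0
  apply hv
  unfold fac236
  split_ifs
  · rfl
  · rw [h0, locFactor_zero236]

theorem finprod_fac236 (a : HeightOneSpectrum (𝓞 K) → ℂ) (S : Finset (HeightOneSpectrum (𝓞 K)))
    (y : (Adl K)ˣ) :
    (∏ᶠ v : HeightOneSpectrum (𝓞 K), fac236 a S y v)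
      = ∏ v ∈ (finite_ordI236 y).toFinset, fac236 a S y v :=
  finprod_eq_prod_of_mulSupport_subset _ (fac_supp236 a S y)

theorem kir_eq236 (a : HeightOneSpectrum (𝓞 K) → ℂ) (S : Finset (HeightOneSpectrum (𝓞 K)))
    (𝔪 : Ideal (𝓞 K)) (y₀ : (Adl K)ˣ) (c : InfinitePlace K → ℝ) (y : (Adl K)ˣ)
    (h : InCell S 𝔪 y₀ y) :
    kir a S 𝔪 y₀ c y
      = ((archProfile c y : ℝ) : ℂ) * ∏ v ∈ (finite_ordI236 y).toFinset, fac236 a S y v := by
  rw [← finprod_fac236]
  unfold kir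
  rw [if_pos h, mul_one]
  rfl

theorem kir_eq_zero236 (a : HeightOneSpectrum (𝓞 K) → ℂ) (S : Finset (HeightOneSpectrum (𝓞 K)))
    (𝔪 : Ideal (𝓞 K)) (y₀ : (Adl K)ˣ) (c : InfinitePlace K → ℝ) (y : (Adl K)ˣ)
    (h : ¬ OnSupp568 S 𝔪 y₀ y) : kir a S 𝔪 y₀ c y = 0 := by
  by_cases hc : InCell S 𝔪 y₀ y
  · have hex : ∃ v : HeightOneSpectrum (𝓞 K), v ∉ S ∧ ordI v y < 0 := by
      by_contra hcon
      apply h
      refine ⟨hc, fun v hv => ?_⟩
      by_contra hneg
      exact hcon ⟨v, hv, not_le.mp hneg⟩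
    obtain ⟨v, hvS, hv⟩ := hex
    rw [kir_eq236 a S 𝔪 y₀ c y hc]
    have hvT : v ∈ (finite_ordI236 y).toFinset := by
      rw [Set.Finite.mem_toFinset, Set.mem_ofPred_eq]
      exact ne_of_lt hv
    have h0 : fac236 a S y v = 0 := by
      unfold fac236
      rw [if_neg hvS, locFactor_neg236 v (a v) hv]
    rw [Finset.prod_eq_zero hvT h0, mul_zero]
  · unfold kir
    rw [if_neg hc, mul_zero, zero_mul]

theorem fac_onSupp236 (a : HeightOneSpectrum (𝓞 K) → ℂ) (S : Finset (HeightOneSpectrum (𝓞 K)))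
    (y : (Adl K)ˣ) (h : ∀ v : HeightOneSpectrum (𝓞 K), v ∉ S → 0 ≤ ordI v y)
    (v : HeightOneSpectrum (𝓞 K)) :
    fac236 a S y v = ((pf236 S y v : ℝ) : ℂ) * hpoly (a v) (expo236 S y v) := by
  by_cases hv : v ∈ S
  · unfold fac236 pf236
    rw [if_pos hv, if_pos hv, expo_mem236 S y hv, hpoly_zero236]
    simp
  · unfold fac236 pf236
    rw [if_neg hv, if_neg hv, expo_notMem236 S y hv, locFactor_nonneg236 v (a v) (h v hv)]

theorem coef_idl236 (a : HeightOneSpectrum (𝓞 K) → ℂ) (S : Finset (HeightOneSpectrum (𝓞 K)))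
    (y : (Adl K)ˣ) :
    coef a (S : Set (HeightOneSpectrum (𝓞 K))) (idl568 S y)
      = ∏ v ∈ (finite_ordI236 y).toFinset, hpoly (a v) (expo236 S y v) := by
  unfold coef
  rw [if_neg (idl_primeTo236 S y)]
  have hfun : (fun v : HeightOneSpectrum (𝓞 K) => hpoly (a v) (ordAt v (idl568 S y)))
      = fun v => hpoly (a v) (expo236 S y v) := by
    funext v
    rw [ordAt_idl236]
  rw [hfun]
  refine finprod_eq_prod_of_mulSupport_subset _ ?_
  intro v hv
  rw [Function.mem_mulSupport] at hv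
  refine Finset.mem_coe.mpr (expo_supp236 S y v ?_)
  intro h0
  exact hv (by rw [h0, hpoly_zero236])

theorem pf_sq236 (S : Finset (HeightOneSpectrum (𝓞 K))) (y : (Adl K)ˣ)
    (h : ∀ v : HeightOneSpectrum (𝓞 K), v ∉ S → 0 ≤ ordI v y) (v : HeightOneSpectrum (𝓞 K)) :
    pf236 S y v * pf236 S y v * nv v ^ expo236 S y v = 1 := by
  by_cases hv : v ∈ S
  · unfold pf236
    rw [if_pos hv, expo_mem236 S y hv, pow_zero]
    norm_num
  · unfold pf236
    rw [if_neg hv, expo_notMem236 S y hv]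
    have hpos := nv_pos236 v
    have hm : (((ordI v y).toNat : ℕ) : ℝ) = (ordI v y : ℝ) := by
      have : (((ordI v y).toNat : ℕ) : ℤ) = ordI v y := Int.toNat_of_nonneg (h v hv)
      exact_mod_cast this
    rw [← Real.rpow_natCast, hm, ← Real.rpow_add hpos, ← Real.rpow_add hpos]
    have : -(ordI v y : ℝ) / 2 + -(ordI v y : ℝ) / 2 + (ordI v y : ℝ) = 0 := by ring
    rw [this, Real.rpow_zero]

theorem prod_pf_sq236 (S : Finset (HeightOneSpectrum (𝓞 K))) (y : (Adl K)ˣ)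
    (h : ∀ v : HeightOneSpectrum (𝓞 K), v ∉ S → 0 ≤ ordI v y) :
    (∏ v ∈ (finite_ordI236 y).toFinset, pf236 S y v) *
        (∏ v ∈ (finite_ordI236 y).toFinset, pf236 S y v) *
        ((Ideal.absNorm (idl568 S y) : ℕ) : ℝ) = 1 := by
  rw [absNorm_idl236, ← Finset.prod_mul_distrib, ← Finset.prod_mul_distrib]
  exact Finset.prod_eq_one fun v _ => pf_sq236 S y h v

theorem kir_onSupp236 (a : HeightOneSpectrum (𝓞 K) → ℂ) (S : Finset (HeightOneSpectrum (𝓞 K)))
    (𝔪 : Ideal (𝓞 K)) (y₀ : (Adl K)ˣ) (c : InfinitePlace K → ℝ) (y : (Adl K)ˣ)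
    (h : OnSupp568 S 𝔪 y₀ y) :
    kir a S 𝔪 y₀ c y
      = ((archProfile c y : ℝ) : ℂ) *
          (((∏ v ∈ (finite_ordI236 y).toFinset, pf236 S y v : ℝ) : ℂ) *
            coef a (S : Set (HeightOneSpectrum (𝓞 K))) (idl568 S y)) := by
  rw [kir_eq236 a S 𝔪 y₀ c y h.1, coef_idl236]
  congr 1
  rw [Finset.prod_congr rfl fun v _ => fac_onSupp236 a S y h.2 v, Finset.prod_mul_distrib]
  push_cast
  rfl

/-! ## 5. The archimedean part -/

theorem rad_ne_zero236 (y : (Adl K)ˣ) (w : InfinitePlace K) : rad568 y w ≠ 0 := by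
  unfold rad568
  rw [norm_ne_zero_iff]
  intro h
  have h1 : ((y : Adl K) * ((y⁻¹ : (Adl K)ˣ) : Adl K)).1 w = (1 : Adl K).1 w := by
    rw [Units.mul_inv]
  have h2 : ((y : Adl K) * ((y⁻¹ : (Adl K)ˣ) : Adl K)).1 w
      = (y : Adl K).1 w * ((y⁻¹ : (Adl K)ˣ) : Adl K).1 w := rfl
  have h3 : (1 : Adl K).1 w = 1 := rfl
  rw [h2, h3, h, zero_mul] at h1
  exact zero_ne_one h1

theorem archProfile_sq236 (hK : TotCplx K) (c : InfinitePlace K → ℝ) (y : (Adl K)ˣ) :
    archProfile c y * archProfile c y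
      = (∏ w : InfinitePlace K, rad568 y w ^ w.mult) * archW568 c (rad568 y) := by
  unfold archProfile archW568
  rw [← Finset.prod_mul_distrib, ← Finset.prod_mul_distrib]
  refine Finset.prod_congr rfl fun w _ => ?_
  have hm : w.mult = 2 := by
    unfold InfinitePlace.mult
    rw [if_neg (InfinitePlace.not_isReal_iff_isComplex.mpr (hK w))]
  rw [hm]
  unfold rad568
  ring

theorem prod_rad_ne_zero236 (y : (Adl K)ˣ) :
    (∏ w : InfinitePlace K, rad568 y w ^ w.mult) ≠ 0 :=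
  Finset.prod_ne_zero_iff.mpr fun w _ => pow_ne_zero _ (rad_ne_zero236 y w)

/-! ## 6. The leaf -/

/-- **T7.14.6c.2 KIR-VAL** in the allowed form. -/
theorem kirValC236 (K : Type) [Field K] [NumberField K] :
    H568.NormValC568 K → H568.KirValC568 K := by
  classical
  intro hN hK S 𝔪 y₀ c hsupp a a' y
  by_cases hy : OnSupp568 S 𝔪 y₀ y
  · rw [if_pos hy]
    obtain ⟨-, hnorm⟩ := hN S 𝔪 y₀ hsupp y hy
    rw [kir_onSupp236 a S 𝔪 y₀ c y hy, kir_onSupp236 a' S 𝔪 y₀ c y hy, hnorm]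
    set P : ℝ := ∏ v ∈ (finite_ordI236 y).toFinset, pf236 S y v with hP
    set R : ℝ := ∏ w : InfinitePlace K, rad568 y w ^ w.mult with hR
    set N : ℝ := ((Ideal.absNorm (idl568 S y) : ℕ) : ℝ) with hNdef
    have hPN : P * P * N = 1 := prod_pf_sq236 S y hy.2
    have hA : archProfile c y * archProfile c y = R * archW568 c (rad568 y) :=
      archProfile_sq236 hK c y
    have hR0 : R ≠ 0 := prod_rad_ne_zero236 y
    have ht0 : cellNorm568 S y₀ ≠ 0 := ne_of_gt (cellNorm_pos568 S y₀)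
    have hN0 : N ≠ 0 := by
      intro h0
      rw [h0, mul_zero] at hPN
      exact zero_ne_one hPN
    unfold coef2
    rw [map_mul, map_mul, Complex.conj_ofReal, Complex.conj_ofReal]
    have hPNc : ((P : ℝ) : ℂ) * ((P : ℝ) : ℂ) * ((N : ℝ) : ℂ) = 1 := by
      exact_mod_cast hPN
    have hAc : ((archProfile c y : ℝ) : ℂ) * ((archProfile c y : ℝ) : ℂ)
        = ((R : ℝ) : ℂ) * ((archW568 c (rad568 y) : ℝ) : ℂ) := by
      exact_mod_cast hA
    have hR0c : ((R : ℝ) : ℂ) ≠ 0 := Complex.ofReal_ne_zero.mpr hR0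
    have ht0c : ((cellNorm568 S y₀ : ℝ) : ℂ) ≠ 0 := Complex.ofReal_ne_zero.mpr ht0
    have hN0c : ((N : ℝ) : ℂ) ≠ 0 := Complex.ofReal_ne_zero.mpr hN0
    push_cast
    field_simp
    linear_combination
      (coef a (S : Set (HeightOneSpectrum (𝓞 K))) (idl568 S y) *
        conj (coef a' (S : Set (HeightOneSpectrum (𝓞 K))) (idl568 S y)) *
        ((P : ℝ) : ℂ) * ((P : ℝ) : ℂ) * ((N : ℝ) : ℂ)) * hAc +
      (coef a (S : Set (HeightOneSpectrum (𝓞 K))) (idl568 S y) *
        conj (coef a' (S : Set (HeightOneSpectrum (𝓞 K))) (idl568 S y)) *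
        ((R : ℝ) : ℂ) * ((archW568 c (rad568 y) : ℝ) : ℂ)) * hPNc
  · rw [if_neg hy, kir_eq_zero236 a S 𝔪 y₀ c y hy, zero_mul, zero_mul]

end Fermat.Agent.LT.T7.H236

end
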