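import Mathlib
import Fermat.Agent.LT.T7.H227.CovolSpec

/-!
# Row LT, tower T7, leaf T7.14.3c.L `LatC227` (helper236)

OFF-MAIN.  `latC236 (K) : H227.LatC227 K`, VERBATIM against `LT/T7/H227/CovolSpec.lean`
(helper227@3432677a3, sha256 `52f0b3fe…`) on `LT/T7/H671/AdelicPair.lean` (`daa04071…`),
byte-identical copies.  UNCONDITIONAL.

Route (the one of the registry row 1896):

1. `pairOf671 (rowOf x g) = rmul236 G (ι x₀, ι x₁)`, `G` = the infinite part of `g` in the mixed
   space, `rmul236` = right multiplication of a pair by a `2 × 2` matrix; `rmul236 G` and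
   `rmul236 G'` (`G'` from `g⁻¹`) are inverse to each other.
2. Denominators (`exists_denominator236`, copied from helper767 `H767/StrongApprox.lean` and
   renamed): `d ∈ 𝓞 K`, `d ≠ 0`, with `d · (g⁻¹)_{ij}` integral at every finite place; then
   `x g` integral implies `d x ∈ 𝓞 K²` (`mem_integers_of_valuation_le_one`).
   So `p ↦ ι(d) · rmul236 G' p` is continuous, injective and maps `latG671 g` into
   `ι(𝓞 K) × ι(𝓞 K)`, which is discrete: `latG671 g` is discrete.
3. `d'` with `d' · g_{ij}` integral: `rmul236 G (ι(d') a, ι(d') b) ∈ latG671 g` for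
   `a, b ∈ ι(𝓞 K)`; `ι(𝓞 K)` spans the mixed space and the map is a linear surjection.
-/

set_option autoImplicit false
set_option linter.unusedSectionVars false
set_option linter.unusedVariables false

open NumberField NumberField.mixedEmbedding NumberField.InfinitePlace IsDedekindDomain
  IsDedekindDomain.HeightOneSpectrum MeasureTheory
open scoped ENNReal Matrix

noncomputable section

namespace Fermat.Agent.LT.T7.H236

open Fermat.Agent.LT.H556 Fermat.Agent.LT.H556.A0 Fermat.Agent.LT.T7.Rigid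
  Fermat.Agent.LT.T7.H671 Fermat.Agent.LT.T7.H227

variable {K : Type} [Field K] [NumberField K]

/-! ## 1. Denominators (helper767, copied and renamed) -/

theorem valued_algebraMap236 (v : HeightOneSpectrum (𝓞 K)) (k : K) :
    Valued.v (algebraMap K (v.adicCompletion K) k) = v.valuation K k :=
  valuedAdicCompletion_eq_valuation' v k

theorem valued_algebraMap_int_le_one236 (v : HeightOneSpectrum (𝓞 K)) (a : 𝓞 K) :
    Valued.v (algebraMap K (v.adicCompletion K) (algebraMap (𝓞 K) K a)) ≤ 1 := by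
  rw [valued_algebraMap236]
  exact valuation_le_one v a

theorem exists_int_mul_le_one236 (v : HeightOneSpectrum (𝓞 K)) (x : v.adicCompletion K) :
    ∃ d : 𝓞 K, d ≠ 0 ∧
      Valued.v (algebraMap K (v.adicCompletion K) (algebraMap (𝓞 K) K d) * x) ≤ 1 := by
  obtain ⟨π, hπ, hπ0⟩ := Submodule.exists_mem_ne_zero_of_ne_bot v.ne_bot
  set P0 : v.adicCompletion K := algebraMap K (v.adicCompletion K) (algebraMap (𝓞 K) K π) with hP0
  have hP1 : ‖P0‖ < 1 := by
    rw [Valued.toNormedField.norm_lt_one_iff, hP0, valued_algebraMap236]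
    exact (valuation_lt_one_iff_mem v π).mpr hπ
  obtain ⟨n, hn⟩ := exists_pow_lt_of_lt_one (show (0 : ℝ) < 1 / (‖x‖ + 1) by positivity) hP1
  refine ⟨π ^ n, pow_ne_zero _ hπ0, ?_⟩
  rw [← Valued.toNormedField.norm_le_one_iff, map_pow, map_pow, norm_mul, norm_pow]
  have h1 : ‖P0‖ ^ n * ‖x‖ ≤ 1 / (‖x‖ + 1) * (‖x‖ + 1) := by
    apply mul_le_mul hn.le (by linarith) (norm_nonneg _) (by positivity)
  have h2 : 1 / (‖x‖ + 1) * (‖x‖ + 1) = 1 := by
    field_simp
  linarith

theorem exists_denominator236 (a : FiniteAdeleRing (𝓞 K) K) :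
    ∃ d : 𝓞 K, d ≠ 0 ∧ ∀ v : HeightOneSpectrum (𝓞 K),
      Valued.v (algebraMap K (v.adicCompletion K) (algebraMap (𝓞 K) K d) * a v) ≤ 1 := by
  classical
  have hfin : {v : HeightOneSpectrum (𝓞 K) | ¬ a v ∈ v.adicCompletionIntegers K}.Finite :=
    Filter.eventually_cofinite.mp a.2
  choose δ hδ0 hδ using fun v : HeightOneSpectrum (𝓞 K) => exists_int_mul_le_one236 v (a v)
  refine ⟨∏ v ∈ hfin.toFinset, δ v, Finset.prod_ne_zero_iff.mpr fun v _ => hδ0 v, fun v => ?_⟩
  by_cases hv : v ∈ hfin.toFinset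
  · rw [← Finset.mul_prod_erase _ _ hv]
    have key : algebraMap K (v.adicCompletion K)
          (algebraMap (𝓞 K) K (δ v * ∏ x ∈ hfin.toFinset.erase v, δ x)) * a v
        = (algebraMap K (v.adicCompletion K) (algebraMap (𝓞 K) K (δ v)) * a v) *
          algebraMap K (v.adicCompletion K)
            (algebraMap (𝓞 K) K (∏ x ∈ hfin.toFinset.erase v, δ x)) := by
      rw [map_mul, map_mul]; ring
    rw [key, map_mul]
    calc _ ≤ 1 * 1 := mul_le_mul' (hδ v) (valued_algebraMap_int_le_one236 v _)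
      _ = 1 := one_mul 1
  · have hav : Valued.v (a v) ≤ 1 := by
      by_contra h
      exact hv (hfin.mem_toFinset.mpr h)
    rw [map_mul]
    calc _ ≤ 1 * 1 := mul_le_mul' (valued_algebraMap_int_le_one236 v _) hav
      _ = 1 := one_mul 1

/-- The image of `k ∈ K` in `K_v`. -/
abbrev loc236 (v : HeightOneSpectrum (𝓞 K)) (k : K) : v.adicCompletion K :=
  algebraMap K (v.adicCompletion K) k

theorem int_loc236 (v : HeightOneSpectrum (𝓞 K)) (a : 𝓞 K) :
    loc236 v (a : K) ∈ v.adicCompletionIntegers K :=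
  (mem_adicCompletionIntegers (𝓞 K) K v).mpr (valued_algebraMap_int_le_one236 v a)

/-- A common denominator of the finite parts of the entries of a matrix. -/
theorem exists_den_mat236 (A : Fin 2 → Fin 2 → Adl K) :
    ∃ d : 𝓞 K, d ≠ 0 ∧ ∀ (v : HeightOneSpectrum (𝓞 K)) (i j : Fin 2),
      loc236 v (d : K) * (A i j).2 v ∈ v.adicCompletionIntegers K := by
  choose δ hδ0 hδ using fun ij : Fin 2 × Fin 2 => exists_denominator236 (A ij.1 ij.2).2
  have hδ' : ∀ (ij : Fin 2 × Fin 2) (v : HeightOneSpectrum (𝓞 K)),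
      loc236 v (δ ij : K) * (A ij.1 ij.2).2 v ∈ v.adicCompletionIntegers K :=
    fun ij v => (mem_adicCompletionIntegers (𝓞 K) K v).mpr (hδ ij v)
  refine ⟨δ (0, 0) * δ (0, 1) * δ (1, 0) * δ (1, 1),
    mul_ne_zero (mul_ne_zero (mul_ne_zero (hδ0 _) (hδ0 _)) (hδ0 _)) (hδ0 _), fun v i j => ?_⟩
  have hcast : loc236 v ((δ (0, 0) * δ (0, 1) * δ (1, 0) * δ (1, 1) : 𝓞 K) : K)
      = loc236 v (δ (0, 0) : K) * loc236 v (δ (0, 1) : K) * loc236 v (δ (1, 0) : K)
          * loc236 v (δ (1, 1) : K) := by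
    simp only [loc236, map_mul]
  rw [hcast]
  have h00 := hδ' (0, 0) v
  have h01 := hδ' (0, 1) v
  have h10 := hδ' (1, 0) v
  have h11 := hδ' (1, 1) v
  have i00 := int_loc236 v (δ (0, 0))
  have i01 := int_loc236 v (δ (0, 1))
  have i10 := int_loc236 v (δ (1, 0))
  have i11 := int_loc236 v (δ (1, 1))
  fin_cases i <;> fin_cases j
  · have e : loc236 v (δ (0, 0) : K) * loc236 v (δ (0, 1) : K) * loc236 v (δ (1, 0) : K)
          * loc236 v (δ (1, 1) : K) * (A 0 0).2 v
        = (loc236 v (δ (0, 0) : K) * (A 0 0).2 v) *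
          (loc236 v (δ (0, 1) : K) * loc236 v (δ (1, 0) : K) * loc236 v (δ (1, 1) : K)) := by
      ring
    exact e ▸ mul_mem h00 (mul_mem (mul_mem i01 i10) i11)
  · have e : loc236 v (δ (0, 0) : K) * loc236 v (δ (0, 1) : K) * loc236 v (δ (1, 0) : K)
          * loc236 v (δ (1, 1) : K) * (A 0 1).2 v
        = (loc236 v (δ (0, 1) : K) * (A 0 1).2 v) *
          (loc236 v (δ (0, 0) : K) * loc236 v (δ (1, 0) : K) * loc236 v (δ (1, 1) : K)) := by
      ring
    exact e ▸ mul_mem h01 (mul_mem (mul_mem i00 i10) i11)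
  · have e : loc236 v (δ (0, 0) : K) * loc236 v (δ (0, 1) : K) * loc236 v (δ (1, 0) : K)
          * loc236 v (δ (1, 1) : K) * (A 1 0).2 v
        = (loc236 v (δ (1, 0) : K) * (A 1 0).2 v) *
          (loc236 v (δ (0, 0) : K) * loc236 v (δ (0, 1) : K) * loc236 v (δ (1, 1) : K)) := by
      ring
    exact e ▸ mul_mem h10 (mul_mem (mul_mem i00 i01) i11)
  · have e : loc236 v (δ (0, 0) : K) * loc236 v (δ (0, 1) : K) * loc236 v (δ (1, 0) : K)
          * loc236 v (δ (1, 1) : K) * (A 1 1).2 v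
        = (loc236 v (δ (1, 1) : K) * (A 1 1).2 v) *
          (loc236 v (δ (0, 0) : K) * loc236 v (δ (0, 1) : K) * loc236 v (δ (1, 0) : K)) := by
      ring
    exact e ▸ mul_mem h11 (mul_mem (mul_mem i00 i01) i10)

/-- An element of `K` which is integral at every finite place is in `𝓞 K`. -/
theorem exists_int_of_loc236 (k : K)
    (h : ∀ v : HeightOneSpectrum (𝓞 K), loc236 v k ∈ v.adicCompletionIntegers K) :
    ∃ z : 𝓞 K, (z : K) = k := by
  have h1 : ∀ v : HeightOneSpectrum (𝓞 K), v.valuation K k ≤ 1 := by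
    intro v
    rw [← valued_algebraMap236 v k]
    exact (mem_adicCompletionIntegers (𝓞 K) K v).mp (h v)
  obtain ⟨z, hz⟩ := mem_integers_of_valuation_le_one K k h1
  exact ⟨z, hz⟩

/-! ## 2. Right multiplication of pairs by `2 × 2` matrices -/

/-- Right multiplication of the pair `p` by the matrix `A` with entries in the mixed space. -/
def rmul236 (A : Fin 2 → Fin 2 → mixedSpace K) (p : Pair671 K) : Pair671 K :=
  (p.1 * A 0 0 + p.2 * A 1 0, p.1 * A 0 1 + p.2 * A 1 1)

theorem rmul_rmul236 (A B : Fin 2 → Fin 2 → mixedSpace K)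
    (h : ∀ i j : Fin 2, A i 0 * B 0 j + A i 1 * B 1 j = if i = j then 1 else 0)
    (p : Pair671 K) : rmul236 B (rmul236 A p) = p := by
  have h00 : A 0 0 * B 0 0 + A 0 1 * B 1 0 = 1 := by simpa using h 0 0
  have h01 : A 0 0 * B 0 1 + A 0 1 * B 1 1 = 0 := by simpa using h 0 1
  have h10 : A 1 0 * B 0 0 + A 1 1 * B 1 0 = 0 := by simpa using h 1 0
  have h11 : A 1 0 * B 0 1 + A 1 1 * B 1 1 = 1 := by simpa using h 1 1
  unfold rmul236
  refine Prod.ext ?_ ?_
  · show (p.1 * A 0 0 + p.2 * A 1 0) * B 0 0 + (p.1 * A 0 1 + p.2 * A 1 1) * B 1 0 = p.1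
    linear_combination p.1 * h00 + p.2 * h10
  · show (p.1 * A 0 0 + p.2 * A 1 0) * B 0 1 + (p.1 * A 0 1 + p.2 * A 1 1) * B 1 1 = p.2
    linear_combination p.1 * h01 + p.2 * h11

theorem continuous_rmul236 (A : Fin 2 → Fin 2 → mixedSpace K) : Continuous (rmul236 A) := by
  unfold rmul236
  fun_prop

/-- The entries of `g`. -/
def mat236 (g : G K) : Fin 2 → Fin 2 → Adl K :=
  fun i j => (g : Matrix (Fin 2) (Fin 2) (Adl K)) i j

/-- The infinite parts of the entries, in the mixed space. -/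
def infMat236 (A : Fin 2 → Fin 2 → Adl K) : Fin 2 → Fin 2 → mixedSpace K :=
  fun i j => infMixed671 (A i j)

theorem mat_mul_inv236 (g : G K) (i j : Fin 2) :
    mat236 g i 0 * mat236 g⁻¹ 0 j + mat236 g i 1 * mat236 g⁻¹ 1 j
      = if i = j then 1 else 0 := by
  have h : (g : Matrix (Fin 2) (Fin 2) (Adl K)) * ((g⁻¹ : G K) : Matrix (Fin 2) (Fin 2) (Adl K))
      = 1 := by
    rw [← Units.val_mul, mul_inv_cancel, Units.val_one]
  have h2 := congrFun (congrFun h i) j
  rw [Matrix.mul_apply, Fin.sum_univ_two, Matrix.one_apply] at h2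
  exact h2

theorem mat_inv_mul236 (g : G K) (i j : Fin 2) :
    mat236 g⁻¹ i 0 * mat236 g 0 j + mat236 g⁻¹ i 1 * mat236 g 1 j
      = if i = j then 1 else 0 := by
  have h := mat_mul_inv236 g⁻¹ i j
  rwa [inv_inv] at h

theorem infMat_mul236 (A B : Fin 2 → Fin 2 → Adl K)
    (h : ∀ i j : Fin 2, A i 0 * B 0 j + A i 1 * B 1 j = if i = j then 1 else 0)
    (i j : Fin 2) :
    infMat236 A i 0 * infMat236 B 0 j + infMat236 A i 1 * infMat236 B 1 j
      = if i = j then 1 else 0 := by
  unfold infMat236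
  rw [← infMixed671_mul, ← infMixed671_mul, ← infMixed671_add, h i j]
  split_ifs
  · exact infMixed671_one
  · exact infMixed671_zero

/-- The pair of a rational vector. -/
def iota236 (x : Fin 2 → K) : Pair671 K := (mixedEmbedding K (x 0), mixedEmbedding K (x 1))

theorem pairOf_rowOf236 (x : Fin 2 → K) (g : G K) :
    pairOf671 (rowOf x g) = rmul236 (infMat236 (mat236 g)) (iota236 x) := by
  unfold pairOf671 rowOf rmul236 infMat236 mat236 iota236
  rw [infMixed671_add, infMixed671_add, infMixed671_mul, infMixed671_mul, infMixed671_mul,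
    infMixed671_mul, infMixed671_algebraMap, infMixed671_algebraMap]

theorem rmul_inv_pairOf236 (x : Fin 2 → K) (g : G K) :
    rmul236 (infMat236 (mat236 g⁻¹)) (pairOf671 (rowOf x g)) = iota236 x := by
  rw [pairOf_rowOf236]
  exact rmul_rmul236 _ _ (infMat_mul236 _ _ (mat_mul_inv236 g)) _

/-! ## 3. Integrality -/

theorem snd_mul236 (a b : Adl K) (v : HeightOneSpectrum (𝓞 K)) :
    (a * b).2 v = a.2 v * b.2 v := rfl

theorem snd_add236 (a b : Adl K) (v : HeightOneSpectrum (𝓞 K)) :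
    (a + b).2 v = a.2 v + b.2 v := rfl

theorem snd_algebraMap236 (k : K) (v : HeightOneSpectrum (𝓞 K)) :
    (algebraMap K (Adl K) k).2 v = loc236 v k := rfl

/-- `x = (x g) g⁻¹`, entry `j`. -/
theorem rowOf_mul_inv236 (x : Fin 2 → K) (g : G K) (j : Fin 2) :
    rowOf x g 0 * mat236 g⁻¹ 0 j + rowOf x g 1 * mat236 g⁻¹ 1 j = algebraMap K (Adl K) (x j) := by
  have h0 := mat_mul_inv236 g 0 j
  have h1 := mat_mul_inv236 g 1 j
  have e : rowOf x g 0 * mat236 g⁻¹ 0 j + rowOf x g 1 * mat236 g⁻¹ 1 j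
      = algebraMap K (Adl K) (x 0) * (mat236 g 0 0 * mat236 g⁻¹ 0 j + mat236 g 0 1 * mat236 g⁻¹ 1 j)
        + algebraMap K (Adl K) (x 1) *
          (mat236 g 1 0 * mat236 g⁻¹ 0 j + mat236 g 1 1 * mat236 g⁻¹ 1 j) := by
    unfold rowOf mat236
    ring
  rw [e, h0, h1]
  fin_cases j
  · simp
  · simp

/-- If `x g` is integral and `d` is a denominator of `g⁻¹`, then `d x` is integral. -/
theorem exists_int_of_isIntRow236 (g : G K) (d : 𝓞 K)
    (hd : ∀ (v : HeightOneSpectrum (𝓞 K)) (i j : Fin 2),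
      loc236 v (d : K) * (mat236 g⁻¹ i j).2 v ∈ v.adicCompletionIntegers K)
    (x : Fin 2 → K) (hx : IsIntRow671 (rowOf x g)) (j : Fin 2) :
    ∃ z : 𝓞 K, (z : K) = (d : K) * x j := by
  refine exists_int_of_loc236 _ fun v => ?_
  have h := congrArg (fun a : Adl K => a.2 v) (rowOf_mul_inv236 x g j)
  simp only [snd_add236, snd_mul236, snd_algebraMap236] at h
  have e : loc236 v ((d : K) * x j)
      = (rowOf x g 0).2 v * (loc236 v (d : K) * (mat236 g⁻¹ 0 j).2 v)
        + (rowOf x g 1).2 v * (loc236 v (d : K) * (mat236 g⁻¹ 1 j).2 v) := by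
    have e1 : loc236 v ((d : K) * x j) = loc236 v (d : K) * loc236 v (x j) := by
      simp only [loc236, map_mul]
    rw [e1, ← h]
    ring
  rw [e]
  exact add_mem (mul_mem (hx v 0) (hd v 0 j)) (mul_mem (hx v 1) (hd v 1 j))

/-- If `d'` is a denominator of `g` and `z ∈ 𝓞 K²`, then `(d' z) g` is integral. -/
theorem isIntRow_of_int236 (g : G K) (d' : 𝓞 K)
    (hd : ∀ (v : HeightOneSpectrum (𝓞 K)) (i j : Fin 2),
      loc236 v (d' : K) * (mat236 g i j).2 v ∈ v.adicCompletionIntegers K)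
    (z : Fin 2 → 𝓞 K) :
    IsIntRow671 (rowOf (fun i => (d' : K) * (z i : K)) g) := by
  intro v j
  have e : (rowOf (fun i => (d' : K) * (z i : K)) g j).2 v
      = loc236 v (z 0 : K) * (loc236 v (d' : K) * (mat236 g 0 j).2 v)
        + loc236 v (z 1 : K) * (loc236 v (d' : K) * (mat236 g 1 j).2 v) := by
    unfold rowOf
    rw [snd_add236, snd_mul236, snd_mul236, snd_algebraMap236, snd_algebraMap236]
    have e1 : ∀ i : Fin 2, loc236 v ((d' : K) * (z i : K))
        = loc236 v (d' : K) * loc236 v (z i : K) := fun i => by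
      simp only [loc236, map_mul]
    rw [e1 0, e1 1]
    unfold mat236
    ring
  rw [e]
  exact add_mem (mul_mem (int_loc236 v (z 0)) (hd v 0 j))
    (mul_mem (int_loc236 v (z 1)) (hd v 1 j))

theorem mem_integerLattice236 (z : 𝓞 K) :
    mixedEmbedding K (z : K) ∈ mixedEmbedding.integerLattice K := ⟨z, rfl⟩

theorem exists_of_mem_integerLattice236 {a : mixedSpace K}
    (h : a ∈ mixedEmbedding.integerLattice K) : ∃ z : 𝓞 K, mixedEmbedding K (z : K) = a := by
  obtain ⟨z, hz⟩ := h
  exact ⟨z, hz⟩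

/-! ## 4. Discreteness -/

/-- `p ↦ ι(d) · (p G')`. -/
def phi236 (g : G K) (d : 𝓞 K) (p : Pair671 K) : Pair671 K :=
  (mixedEmbedding K (d : K) * (rmul236 (infMat236 (mat236 g⁻¹)) p).1,
    mixedEmbedding K (d : K) * (rmul236 (infMat236 (mat236 g⁻¹)) p).2)

theorem continuous_phi236 (g : G K) (d : 𝓞 K) : Continuous (phi236 g d) := by
  unfold phi236
  have h := continuous_rmul236 (infMat236 (mat236 g⁻¹))
  fun_prop

theorem mixed_inv_mul236 {k : K} (hk : k ≠ 0) :
    mixedEmbedding K k⁻¹ * mixedEmbedding K k = 1 := by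
  rw [← map_mul, inv_mul_cancel₀ hk, map_one]

theorem mixed_mul_inv236 {k : K} (hk : k ≠ 0) :
    mixedEmbedding K k * mixedEmbedding K k⁻¹ = 1 := by
  rw [← map_mul, mul_inv_cancel₀ hk, map_one]

theorem mixed_cancel236 {k : K} (hk : k ≠ 0) {a b : mixedSpace K}
    (h : mixedEmbedding K k * a = mixedEmbedding K k * b) : a = b := by
  have h1 := congrArg (fun t => mixedEmbedding K k⁻¹ * t) h
  simp only [← mul_assoc, mixed_inv_mul236 hk, one_mul] at h1
  exact h1

theorem coe_ne_zero236 {d : 𝓞 K} (hd : d ≠ 0) : (d : K) ≠ 0 := by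
  intro h
  exact hd (RingOfIntegers.coe_eq_zero_iff.mp h)

theorem injective_phi236 (g : G K) {d : 𝓞 K} (hd : d ≠ 0) :
    Function.Injective (phi236 g d) := by
  intro p q h
  unfold phi236 at h
  have h1 := mixed_cancel236 (coe_ne_zero236 hd) (congrArg Prod.fst h)
  have h2 := mixed_cancel236 (coe_ne_zero236 hd) (congrArg Prod.snd h)
  have h3 : rmul236 (infMat236 (mat236 g⁻¹)) p = rmul236 (infMat236 (mat236 g⁻¹)) q :=
    Prod.ext h1 h2
  have h4 := congrArg (rmul236 (infMat236 (mat236 g))) h3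
  rwa [rmul_rmul236 _ _ (infMat_mul236 _ _ (mat_inv_mul236 g)),
    rmul_rmul236 _ _ (infMat_mul236 _ _ (mat_inv_mul236 g))] at h4

theorem phi_mem236 (g : G K) (d : 𝓞 K)
    (hd : ∀ (v : HeightOneSpectrum (𝓞 K)) (i j : Fin 2),
      loc236 v (d : K) * (mat236 g⁻¹ i j).2 v ∈ v.adicCompletionIntegers K)
    {p : Pair671 K} (hp : p ∈ latG671 g) :
    (phi236 g d p).1 ∈ mixedEmbedding.integerLattice K ∧
      (phi236 g d p).2 ∈ mixedEmbedding.integerLattice K := by
  obtain ⟨x, hx, rfl⟩ := mem_latG671.mp hp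
  unfold phi236
  rw [rmul_inv_pairOf236]
  obtain ⟨z0, hz0⟩ := exists_int_of_isIntRow236 g d hd x hx 0
  obtain ⟨z1, hz1⟩ := exists_int_of_isIntRow236 g d hd x hx 1
  constructor
  · show mixedEmbedding K (d : K) * mixedEmbedding K (x 0) ∈ _
    rw [← map_mul, ← hz0]
    exact mem_integerLattice236 z0
  · show mixedEmbedding K (d : K) * mixedEmbedding K (x 1) ∈ _
    rw [← map_mul, ← hz1]
    exact mem_integerLattice236 z1

/-- An open neighbourhood of `0` in the mixed space which meets `ι(𝓞 K)` in `0` only. -/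
theorem exists_open_integerLattice236 :
    ∃ U : Set (mixedSpace K), IsOpen U ∧ (0 : mixedSpace K) ∈ U ∧
      ∀ a ∈ mixedEmbedding.integerLattice K, a ∈ U → a = 0 := by
  have h0 : IsOpen ({0} : Set (mixedEmbedding.integerLattice K)) := isOpen_discrete _
  obtain ⟨U, hU, hUeq⟩ := isOpen_induced_iff.mp h0
  refine ⟨U, hU, ?_, ?_⟩
  · have : (0 : mixedEmbedding.integerLattice K) ∈ Subtype.val ⁻¹' U := by
      rw [hUeq]
      exact Set.mem_singleton _
    exact this
  · intro a ha haU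
    have : (⟨a, ha⟩ : mixedEmbedding.integerLattice K) ∈ Subtype.val ⁻¹' U := haU
    rw [hUeq] at this
    exact congrArg Subtype.val (Set.mem_singleton_iff.mp this)

theorem discrete_latG236 (g : G K) : DiscreteTopology (latG671 g) := by
  obtain ⟨d, hd0, hd⟩ := exists_den_mat236 (mat236 g⁻¹)
  obtain ⟨U, hU, h0U, hUL⟩ := exists_open_integerLattice236 (K := K)
  apply discreteTopology_of_isOpen_singleton_zero
  have hW : IsOpen (phi236 g d ⁻¹' (U ×ˢ U)) :=
    (hU.prod hU).preimage (continuous_phi236 g d)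
  have heq : ({0} : Set (latG671 g)) = Subtype.val ⁻¹' (phi236 g d ⁻¹' (U ×ˢ U)) := by
    ext p
    constructor
    · intro hp
      rw [Set.mem_singleton_iff] at hp
      subst hp
      show phi236 g d (0 : Pair671 K) ∈ U ×ˢ U
      have hz : phi236 g d (0 : Pair671 K) = 0 := by
        unfold phi236 rmul236
        simp
      rw [hz]
      exact ⟨h0U, h0U⟩
    · intro hp
      have hp' : phi236 g d (p : Pair671 K) ∈ U ×ˢ U := hp
      obtain ⟨hm1, hm2⟩ := phi_mem236 g d hd p.2
      have e1 : (phi236 g d (p : Pair671 K)).1 = 0 := hUL _ hm1 hp'.1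
      have e2 : (phi236 g d (p : Pair671 K)).2 = 0 := hUL _ hm2 hp'.2
      have e : phi236 g d (p : Pair671 K) = phi236 g d 0 := by
        have hz : phi236 g d (0 : Pair671 K) = 0 := by
          unfold phi236 rmul236
          simp
        rw [hz]
        exact Prod.ext e1 e2
      have := injective_phi236 g hd0 e
      rw [Set.mem_singleton_iff]
      exact Subtype.ext this
  rw [heq]
  exact hW.preimage continuous_subtype_val

/-! ## 5. Spanning -/

/-- `p ↦ (ι(d') p) G`, as a linear map. -/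
def psi236 (g : G K) (d' : 𝓞 K) : Pair671 K →ₗ[ℝ] Pair671 K where
  toFun p := rmul236 (infMat236 (mat236 g))
    (mixedEmbedding K (d' : K) * p.1, mixedEmbedding K (d' : K) * p.2)
  map_add' p q := by
    unfold rmul236
    refine Prod.ext ?_ ?_
    · simp only [Prod.fst_add, Prod.snd_add]
      ring
    · simp only [Prod.fst_add, Prod.snd_add]
      ring
  map_smul' c p := by
    unfold rmul236
    refine Prod.ext ?_ ?_
    · simp only [Prod.smul_fst, Prod.smul_snd, RingHom.id_apply, mul_smul_comm, smul_mul_assoc,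
        smul_add]
    · simp only [Prod.smul_fst, Prod.smul_snd, RingHom.id_apply, mul_smul_comm, smul_mul_assoc,
        smul_add]

theorem psi_apply236 (g : G K) (d' : 𝓞 K) (p : Pair671 K) :
    psi236 g d' p = rmul236 (infMat236 (mat236 g))
      (mixedEmbedding K (d' : K) * p.1, mixedEmbedding K (d' : K) * p.2) := rfl

theorem surjective_psi236 (g : G K) {d' : 𝓞 K} (hd : d' ≠ 0) :
    Function.Surjective (psi236 g d') := by
  intro q
  refine ⟨(mixedEmbedding K (d' : K)⁻¹ * (rmul236 (infMat236 (mat236 g⁻¹)) q).1,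
    mixedEmbedding K (d' : K)⁻¹ * (rmul236 (infMat236 (mat236 g⁻¹)) q).2), ?_⟩
  rw [psi_apply236]
  simp only [← mul_assoc, mixed_mul_inv236 (coe_ne_zero236 hd), one_mul]
  exact rmul_rmul236 _ _ (infMat_mul236 _ _ (mat_inv_mul236 g)) q

theorem psi_mem236 (g : G K) (d' : 𝓞 K)
    (hd : ∀ (v : HeightOneSpectrum (𝓞 K)) (i j : Fin 2),
      loc236 v (d' : K) * (mat236 g i j).2 v ∈ v.adicCompletionIntegers K)
    {p : Pair671 K} (h1 : p.1 ∈ mixedEmbedding.integerLattice K)
    (h2 : p.2 ∈ mixedEmbedding.integerLattice K) : psi236 g d' p ∈ latG671 g := by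
  obtain ⟨z0, hz0⟩ := exists_of_mem_integerLattice236 h1
  obtain ⟨z1, hz1⟩ := exists_of_mem_integerLattice236 h2
  refine mem_latG671.mpr ⟨fun i => (d' : K) * ((![z0, z1] i : 𝓞 K) : K),
    isIntRow_of_int236 g d' hd ![z0, z1], ?_⟩
  rw [pairOf_rowOf236, psi_apply236]
  congr 1
  unfold iota236
  refine Prod.ext ?_ ?_
  · show mixedEmbedding K ((d' : K) * (z0 : K)) = mixedEmbedding K (d' : K) * p.1
    rw [map_mul, hz0]
  · show mixedEmbedding K ((d' : K) * (z1 : K)) = mixedEmbedding K (d' : K) * p.2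
    rw [map_mul, hz1]

open scoped Classical in
theorem span_latG236 (g : G K) : Submodule.span ℝ (latG671 g : Set (Pair671 K)) = ⊤ := by
  obtain ⟨d', hd0, hd⟩ := exists_den_mat236 (mat236 g)
  have hL : Submodule.span ℝ ((mixedEmbedding.integerLattice K : Set (mixedSpace K)))
      = ⊤ := IsZLattice.span_top
  have hLL : Submodule.span ℝ
      (((mixedEmbedding.integerLattice K : Set (mixedSpace K))) ×ˢ
        ((mixedEmbedding.integerLattice K : Set (mixedSpace K)))) = ⊤ := by
    rw [Submodule.span_prod_eq ℝ (zero_mem _) (zero_mem _), hL, Submodule.prod_top]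
  have hsub : (psi236 g d') ''
      (((mixedEmbedding.integerLattice K : Set (mixedSpace K))) ×ˢ
        ((mixedEmbedding.integerLattice K : Set (mixedSpace K))))
      ⊆ (latG671 g : Set (Pair671 K)) := by
    rintro _ ⟨p, hp, rfl⟩
    exact psi_mem236 g d' hd hp.1 hp.2
  rw [eq_top_iff]
  calc (⊤ : Submodule ℝ (Pair671 K))
      = LinearMap.range (psi236 g d') :=
        (LinearMap.range_eq_top.mpr (surjective_psi236 g hd0)).symm
    _ = Submodule.map (psi236 g d') ⊤ := (Submodule.map_top _).symm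
    _ = Submodule.span ℝ ((psi236 g d') ''
          (((mixedEmbedding.integerLattice K : Set (mixedSpace K))) ×ˢ
            ((mixedEmbedding.integerLattice K : Set (mixedSpace K))))) := by
        rw [Submodule.span_image, hLL]
    _ ≤ Submodule.span ℝ (latG671 g : Set (Pair671 K)) := Submodule.span_mono hsub

/-! ## 6. The leaf -/

open scoped Classical in
/-- **T7.14.3c.L LAT**: `latG671 g` is a lattice of `(K_∞)²`. -/
theorem latC236 (K : Type) [Field K] [NumberField K] : H227.LatC227 K := by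
  intro g
  refine ⟨discrete_latG236 g, ?_⟩
  let _ := discrete_latG236 g
  exact ⟨span_latG236 g⟩

end Fermat.Agent.LT.T7.H236

end
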