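/-
Row LT, tower T7, node T7.L2.1.H2a.4 `Pair2Cb970` (sub-architect helper970), leaf 4.6 `ShapeC970`
(registry 2867) -- helper236, SPARE.  OFF-MAIN.  Part A: weighted sums of left translates of a
test function (everything in `T5.IsTestFn` except the left invariance under the level group).
Complete proofs, nothing assumed.
-/
import Mathlib
import Fermat.Agent.LT.T7.B970.Pair2Spec
import Fermat.Agent.LT.T7.H311.EkProdTools

set_option autoImplicit false
set_option linter.unusedSectionVars false
set_option linter.unusedVariables false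
set_option linter.style.haveILetI false

open AutomorphicForm IsDedekindDomain NumberField MeasureTheory
open scoped ComplexConjugate ContDiff

noncomputable section

namespace Fermat.Agent.LT.T7.H236

open Fermat.Agent.LT.H556 Fermat.Agent.LT.H556.A0 Fermat.Agent.LT Fermat.Agent.LT.T7
open Fermat.Agent.LT.T7.H305 Fermat.Agent.LT.T7.H893 Fermat.Agent.LT.T7.B981
open Fermat.Agent.LT.T7.B970

attribute [local instance] Fermat.Agent.LT.T5.instMeasurableSpaceG

section OneField

variable {F : Type} [Field F] [NumberField F]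

/-- Everything in `T5.IsTestFn 𝔫 T5.trivType` except the left invariance under the level
group. -/
structure IsPreT236 (𝔫 : Ideal (𝓞 F)) (φ : G F → ℂ) : Prop where
  cont : Continuous φ
  supp : HasCompactSupport φ
  smooth : T5.IsSmoothAtInf φ
  level_right : ∀ u : G F, InLevelGroup 𝔫 u → ∀ g : G F, φ (g * u) = φ g
  arch_right : ∀ (w : InfinitePlace F) (k : G F), IsArchCompact w k →
    ∀ g : G F, φ (g * k) = φ g
  arch_left : ∀ (w : InfinitePlace F) (k : G F), IsArchCompact w k →
    ∀ g : G F, φ (k * g) = φ g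

variable {𝔫 : Ideal (𝓞 F)}

theorem isPreT_of_test236 {φ : G F → ℂ} (h : T5.IsTestFn 𝔫 T5.trivType φ) : IsPreT236 𝔫 φ where
  cont := h.cont
  supp := h.supp
  smooth := h.smooth
  level_right := h.inv.level_right
  arch_right := fun w k hk g => by
    have := h.inv.arch_right w k hk g
    simpa [T5.trivType] using this
  arch_left := fun w k hk g => by
    have := h.inv.arch_left w k hk g
    simpa [T5.trivType] using this

theorem isTestFn_of_preT236 {φ : G F → ℂ} (hk : T5.IsKType (T5.trivType (K := F)))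
    (h : IsPreT236 𝔫 φ)
    (hl : ∀ u : G F, InLevelGroup 𝔫 u → ∀ g : G F, φ (u * g) = φ g) :
    T5.IsTestFn 𝔫 T5.trivType φ where
  ktype := hk
  cont := h.cont
  supp := h.supp
  smooth := h.smooth
  inv :=
    { level_right := h.level_right
      level_left := hl
      arch_right := fun w k hk g => by
        rw [h.arch_right w k hk g]
        simp [T5.trivType]
      arch_left := fun w k hk g => by
        rw [h.arch_left w k hk g]
        simp [T5.trivType] }

theorem IsPreT236.ltr {φ : G F → ℂ} (h : IsPreT236 𝔫 φ) {b : G F}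
    (hb : ∀ w : InfinitePlace F, TrivAtInf w b) : IsPreT236 𝔫 (fun y => φ (b⁻¹ * y)) where
  cont := h.cont.comp (continuous_const_mul b⁻¹)
  supp := h.supp.comp_homeomorph (Homeomorph.mulLeft b⁻¹)
  smooth := fun n fam h1 h2 g => by
    have := h.smooth n fam h1 h2 (b⁻¹ * g)
    simpa only [mul_assoc] using this
  level_right := fun u hu g => by
    show φ (b⁻¹ * (g * u)) = φ (b⁻¹ * g)
    rw [← mul_assoc]
    exact h.level_right u hu _
  arch_right := fun w k hk g => by
    show φ (b⁻¹ * (g * k)) = φ (b⁻¹ * g)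
    rw [← mul_assoc]
    exact h.arch_right w k hk _
  arch_left := fun w k hk g => by
    show φ (b⁻¹ * (k * g)) = φ (b⁻¹ * g)
    have hc : b⁻¹ * k = k * b⁻¹ := H311.commute_fin_inf311 (H311.trivAtInf_inv311 hb) hk.1.2
    rw [← mul_assoc, hc, mul_assoc]
    exact h.arch_left w k hk _

theorem IsPreT236.add {φ₁ φ₂ : G F → ℂ} (h₁ : IsPreT236 𝔫 φ₁) (h₂ : IsPreT236 𝔫 φ₂) :
    IsPreT236 𝔫 (fun y => φ₁ y + φ₂ y) where
  cont := h₁.cont.add h₂.cont
  supp := h₁.supp.add h₂.supp
  smooth := fun n fam h1 h2 g => (h₁.smooth n fam h1 h2 g).add (h₂.smooth n fam h1 h2 g)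
  level_right := fun u hu g => by
    show φ₁ (g * u) + φ₂ (g * u) = φ₁ g + φ₂ g
    rw [h₁.level_right u hu, h₂.level_right u hu]
  arch_right := fun w k hk g => by
    show φ₁ (g * k) + φ₂ (g * k) = φ₁ g + φ₂ g
    rw [h₁.arch_right w k hk, h₂.arch_right w k hk]
  arch_left := fun w k hk g => by
    show φ₁ (k * g) + φ₂ (k * g) = φ₁ g + φ₂ g
    rw [h₁.arch_left w k hk, h₂.arch_left w k hk]

theorem IsPreT236.smul (c : ℂ) {φ : G F → ℂ} (h : IsPreT236 𝔫 φ) :
    IsPreT236 𝔫 (fun y => c * φ y) where
  cont := continuous_const.mul h.cont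
  supp := h.supp.mul_left
  smooth := fun n fam h1 h2 g => contDiff_const.mul (h.smooth n fam h1 h2 g)
  level_right := fun u hu g => by
    show c * φ (g * u) = c * φ g
    rw [h.level_right u hu]
  arch_right := fun w k hk g => by
    show c * φ (g * k) = c * φ g
    rw [h.arch_right w k hk]
  arch_left := fun w k hk g => by
    show c * φ (k * g) = c * φ g
    rw [h.arch_left w k hk]

theorem isPreT_zero236 : IsPreT236 𝔫 (fun _ : G F => (0 : ℂ)) where
  cont := continuous_const
  supp := HasCompactSupport.zero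
  smooth := fun n fam h1 h2 g => contDiff_const
  level_right := fun u hu g => rfl
  arch_right := fun w k hk g => rfl
  arch_left := fun w k hk g => rfl

theorem isPreT_sum236 {ι : Type} (s : Finset ι) (f : ι → G F → ℂ)
    (h : ∀ i ∈ s, IsPreT236 𝔫 (f i)) : IsPreT236 𝔫 (fun y => ∑ i ∈ s, f i y) := by
  classical
  induction s using Finset.induction_on with
  | empty =>
    simp only [Finset.sum_empty]
    exact isPreT_zero236
  | insert a s ha ih =>
    have h1 : (fun y => ∑ i ∈ insert a s, f i y) = fun y => f a y + ∑ i ∈ s, f i y := by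
      funext y
      rw [Finset.sum_insert ha]
    rw [h1]
    exact (h a (Finset.mem_insert_self a s)).add
      (ih fun i hi => h i (Finset.mem_insert_of_mem hi))

/-- The weighted sum of left translates by elements which are trivial at infinity. -/
theorem isPreT_wsum236 {φ : G F → ℂ} (h : IsPreT236 𝔫 φ) (s : Finset (G F)) (β : G F → ℂ)
    (hs : ∀ x ∈ s, ∀ w : InfinitePlace F, TrivAtInf w x) :
    IsPreT236 𝔫 (wsum970 s β φ) := by
  have e : wsum970 s β φ = fun y => ∑ x ∈ s, (fun y => β x * (fun y => φ (x⁻¹ * y)) y) y := rfl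
  rw [e]
  exact isPreT_sum236 s _ fun x hx => IsPreT236.smul (β x) (h.ltr (hs x hx))

theorem isPreT_lsum236 {φ : G F → ℂ} (h : IsPreT236 𝔫 φ) (s : Finset (G F))
    (hs : ∀ x ∈ s, ∀ w : InfinitePlace F, TrivAtInf w x) :
    IsPreT236 𝔫 (lsum s φ) := by
  have e : lsum s φ = fun y => ∑ x ∈ s, (fun y => φ (x⁻¹ * y)) y := rfl
  rw [e]
  exact isPreT_sum236 s _ fun x hx => h.ltr (hs x hx)

theorem lsum_eq_wsum236 (s : Finset (G F)) (φ : G F → ℂ) :
    lsum s φ = wsum970 s (fun _ => 1) φ := by
  funext y
  simp [lsum, wsum970]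

end OneField

end Fermat.Agent.LT.T7.H236
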