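/-
Row LT, tower T7, node T7.L2.1.H2a.4 `Pair2Cb970` (sub-architect helper970), leaf 4.6 `ShapeC970`
(registry 2867) -- helper236, SPARE.  OFF-MAIN.  Part B: THE FINITE STEP.  The weighted sums of
left translates of a pair with the shape `IsAvgPure … LocA893` are a pair with the shape
`IsAvgPure … LocB893b` (same parameter space, replaced components), GIVEN the left invariance
of the new members under the level groups (`hLU`, `hLD`; Part C).  Complete proofs.
-/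
import Mathlib
import Fermat.Agent.LT.T7.H236.ShapeFinA
import Fermat.Agent.LT.T7.H557.DescTriv

set_option autoImplicit false
set_option linter.unusedSectionVars false
set_option linter.unusedVariables false
set_option linter.style.haveILetI false

open AutomorphicForm IsDedekindDomain NumberField MeasureTheory
open scoped ComplexConjugate

noncomputable section

namespace Fermat.Agent.LT.T7.H236

open Fermat.Agent.LT.H556 Fermat.Agent.LT.H556.A0 Fermat.Agent.LT Fermat.Agent.LT.T7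
open Fermat.Agent.LT.T7.H305 Fermat.Agent.LT.T7.H893 Fermat.Agent.LT.T7.B981
open Fermat.Agent.LT.T7.B970

attribute [local instance] Fermat.Agent.LT.T5.instMeasurableSpaceG

section TwoFields

open Classical

variable {K K' : Type} [Field K] [NumberField K] [Field K'] [NumberField K'] [Algebra K K']

/-! ## 1. The replaced components -/

theorem repDn_u236 (B : L2Base K K') (T₀ : Finset (HeightOneSpectrum (𝓞 K)))
    (b f₀ : ∀ v : HeightOneSpectrum (𝓞 K), GL (Fin 2) (v.adicCompletion K) → ℂ) :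
    repDn970 B T₀ b f₀ B.u = iwFn893 := by
  unfold repDn970
  rw [if_pos rfl]

theorem repDn_bad236 (B : L2Base K K') (T₀ : Finset (HeightOneSpectrum (𝓞 K)))
    (b f₀ : ∀ v : HeightOneSpectrum (𝓞 K), GL (Fin 2) (v.adicCompletion K) → ℂ)
    {v : HeightOneSpectrum (𝓞 K)} (hv : v ∈ T₀.erase B.u) :
    repDn970 B T₀ b f₀ v = b v := by
  unfold repDn970
  rw [if_neg (Finset.ne_of_mem_erase hv), if_pos (Finset.mem_of_mem_erase hv)]

theorem repDn_out236 (B : L2Base K K') (T₀ : Finset (HeightOneSpectrum (𝓞 K)))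
    (b f₀ : ∀ v : HeightOneSpectrum (𝓞 K), GL (Fin 2) (v.adicCompletion K) → ℂ)
    (hu : B.u ∈ T₀) {v : HeightOneSpectrum (𝓞 K)} (hv : v ∉ T₀) :
    repDn970 B T₀ b f₀ v = f₀ v := by
  unfold repDn970
  have h1 : ¬ v = B.u := by
    rintro rfl
    exact hv hu
  rw [if_neg h1, if_neg hv]

theorem repUp_orbit236 (B : L2Base K K') (T₀ : Finset (HeightOneSpectrum (𝓞 K)))
    (n₀ : HeightOneSpectrum (𝓞 K') → ℕ)
    (φ₀ : ∀ w : HeightOneSpectrum (𝓞 K'), GL (Fin 2) (w.adicCompletion K') → ℂ)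
    {w : HeightOneSpectrum (𝓞 K')} (hw : PlaceOver K K' B.u w) :
    repUp970 B T₀ n₀ φ₀ w = iwFn893 := by
  unfold repUp970
  rw [if_pos hw]

theorem repUp_bad236 (B : L2Base K K') (T₀ : Finset (HeightOneSpectrum (𝓞 K)))
    (n₀ : HeightOneSpectrum (𝓞 K') → ℕ)
    (φ₀ : ∀ w : HeightOneSpectrum (𝓞 K'), GL (Fin 2) (w.adicCompletion K') → ℂ)
    {v : HeightOneSpectrum (𝓞 K)} (hv : v ∈ T₀) (hvu : v ≠ B.u)
    {w : HeightOneSpectrum (𝓞 K')} (hw : PlaceOver K K' v w) :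
    repUp970 B T₀ n₀ φ₀ w = unitFn893 (n₀ w) := by
  unfold repUp970
  have h1 : ¬ PlaceOver K K' B.u w := fun h => hvu (H557.placeOver_unique_557 hw h)
  rw [if_neg h1, if_pos ⟨v, hv, hw⟩]

theorem repUp_out236 (B : L2Base K K') (T₀ : Finset (HeightOneSpectrum (𝓞 K)))
    (n₀ : HeightOneSpectrum (𝓞 K') → ℕ)
    (φ₀ : ∀ w : HeightOneSpectrum (𝓞 K'), GL (Fin 2) (w.adicCompletion K') → ℂ)
    (hu : B.u ∈ T₀) {v : HeightOneSpectrum (𝓞 K)} (hv : v ∉ T₀)
    {w : HeightOneSpectrum (𝓞 K')} (hw : PlaceOver K K' v w) :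
    repUp970 B T₀ n₀ φ₀ w = φ₀ w := by
  unfold repUp970
  have h1 : ¬ PlaceOver K K' B.u w := by
    intro h
    have e : v = B.u := H557.placeOver_unique_557 hw h
    exact hv (e ▸ hu)
  have h2 : ¬ ∃ v' ∈ T₀, PlaceOver K K' v' w := by
    rintro ⟨v', hv', hw'⟩
    have e : v = v' := H557.placeOver_unique_557 hw hw'
    exact hv (e ▸ hv')
  rw [if_neg h1, if_neg h2]

/-! ## 2. The local shape of the replaced components -/

theorem locB_of_locA236 {B : L2Base K K'} {g : G K'} {𝔫 : Ideal (𝓞 K)}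
    {μc : @Measure (GL (Fin 2) ℂ) (borel _)} {T₀ : Finset (HeightOneSpectrum (𝓞 K))}
    {n n₀ : HeightOneSpectrum (𝓞 K') → ℕ} {m : HeightOneSpectrum (𝓞 K) → ℕ}
    (hu : B.u ∈ T₀)
    {b : ∀ v : HeightOneSpectrum (𝓞 K), GL (Fin 2) (v.adicCompletion K) → ℂ}
    (hb : LocFin970 (B.comp 𝔫) (T₀.erase B.u) n m
      (fun w => dblFn893 (n₀ w) (finGL305 w g)) b)
    {T : Finset (HeightOneSpectrum (𝓞 K))}
    {φ₀ : ∀ w : HeightOneSpectrum (𝓞 K'), GL (Fin 2) (w.adicCompletion K') → ℂ}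
    {Φ : InfinitePlace K' → GL (Fin 2) ℂ → ℂ}
    {f₀ : ∀ v : HeightOneSpectrum (𝓞 K), GL (Fin 2) (v.adicCompletion K) → ℂ}
    {F : InfinitePlace K → GL (Fin 2) ℂ → ℂ}
    (hA : LocA893 B 𝔫 μc T₀ n m T φ₀ Φ f₀ F) :
    LocB893b B g 𝔫 μc T₀ n n₀ m T (repUp970 B T₀ n₀ φ₀) Φ (repDn970 B T₀ b f₀) F := by
  obtain ⟨hf₀, hφ₀, hsph, harch, hU2, hU2'⟩ := hA
  refine ⟨?_, ?_, repDn_u236 B T₀ b f₀, fun w hw => repUp_orbit236 B T₀ n₀ φ₀ hw, ?_, ?_, hU2,
    hU2'⟩
  · exact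
      { inv_up := hb.inv_up
        inv_down := fun v hv => by
          rw [repDn_bad236 B T₀ b f₀ hv]
          exact hb.inv_down v hv
        arch_up := harch.arch_up
        arch_down := harch.arch_down
        inert := fun v hv => by
          rw [repDn_bad236 B T₀ b f₀ hv]
          exact hb.inert v hv
        split := fun v hv => by
          rw [repDn_bad236 B T₀ b f₀ hv]
          exact hb.split v hv
        arch := harch.arch }
  · intro v hv hvu w hw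
    exact repUp_bad236 B T₀ n₀ φ₀ hv hvu hw
  · intro v hv hvT₀
    obtain ⟨A, Av, h1, h2, h3, h4⟩ := hsph v hv hvT₀
    refine ⟨A, Av, ?_, fun w hw => ?_, h3, h4⟩
    · rw [repDn_out236 B T₀ b f₀ hu hvT₀]
      exact h1
    · rw [repUp_out236 B T₀ n₀ φ₀ hu hvT₀ hw]
      exact h2 w hw
  · exact
      { inv_up := fun v hv => absurd hv (Finset.notMem_empty v)
        inv_down := fun v hv => absurd hv (Finset.notMem_empty v)
        arch_up := harch.arch_up
        arch_down := harch.arch_down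
        inert := fun v hv => absurd hv (Finset.notMem_empty v)
        split := fun v hv => absurd hv (Finset.notMem_empty v)
        arch := harch.arch }

/-! ## 3. The finite step -/

/-- **THE FINITE STEP.**  Same parameter space, replaced components. -/
theorem isAvgPure_rep236 {ℓ : ℕ} {B : L2Base K K'} {g : G K'} {𝔫 : Ideal (𝓞 K)}
    {μc : @Measure (GL (Fin 2) ℂ) (borel _)} {T₀ : Finset (HeightOneSpectrum (𝓞 K))}
    {n n₀ : HeightOneSpectrum (𝓞 K') → ℕ} {m : HeightOneSpectrum (𝓞 K) → ℕ}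
    (hu : B.u ∈ T₀)
    {s' : Finset (G K')} (hs' : IsWtUp970 ℓ B T₀ n n₀ s')
    {s : Finset (G K)} {β : G K → ℂ}
    {b : ∀ v : HeightOneSpectrum (𝓞 K), GL (Fin 2) (v.adicCompletion K) → ℂ}
    (hb : LocFin970 (B.comp 𝔫) (T₀.erase B.u) n m
      (fun w => dblFn893 (n₀ w) (finGL305 w g)) b)
    (hs : IsWtDown970 B T₀ m s β b)
    (hLU : ∀ p' : G K' → ℂ, T5.IsTestFn (upI (K' := K') 𝔫) T5.trivType p' →
      ∀ u : G K', InLevelGroup (upI (K' := K') 𝔫) u → ∀ y : G K',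
        lsum s' p' (u * y) = lsum s' p' y)
    (hLD : ∀ (T : Finset (HeightOneSpectrum (𝓞 K)))
      (φ₀ : ∀ w : HeightOneSpectrum (𝓞 K'), GL (Fin 2) (w.adicCompletion K') → ℂ)
      (Φ : InfinitePlace K' → GL (Fin 2) ℂ → ℂ)
      (f₀ : ∀ v : HeightOneSpectrum (𝓞 K), GL (Fin 2) (v.adicCompletion K) → ℂ)
      (F : InfinitePlace K → GL (Fin 2) ℂ → ℂ), T₀ ⊆ T →
      LocA893 B 𝔫 μc T₀ n m T φ₀ Φ f₀ F →
      ∀ u : G K, InLevelGroup 𝔫 u → ∀ y : G K,
        pure305 T (repDn970 B T₀ b f₀) F (u * y) = pure305 T (repDn970 B T₀ b f₀) F y)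
    {Φ₁0 : G K' → ℂ} {F₁0 : G K → ℂ}
    (hA : IsAvgPure (upI (K' := K') 𝔫) 𝔫 T₀ (LocA893 B 𝔫 μc T₀ n m) 1 Φ₁0 F₁0) (c : ℂ) :
    IsAvgPure (upI (K' := K') 𝔫) 𝔫 T₀ (LocB893b B g 𝔫 μc T₀ n n₀ m) c
      (lsum s' Φ₁0) (fun h => c * wsum970 s β F₁0 h) := by
  obtain ⟨Ω, iT, iC, iT2, iSC, iM, iB, ν, iF, T, T', φ₀, Φ, f₀, F, h1, h2, h3, h4, h5,
    ⟨C', hC', hC'm⟩, ⟨C, hC, hCm⟩, h8, h9⟩ := hA
  -- the old members
  have h3' : ∀ ω : Ω, T5.IsTestFn 𝔫 T5.trivType (pure305 (T ω) (f₀ ω) (F ω)) := by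
    intro ω
    have := h3 ω
    simpa only [one_mul] using this
  have h5' : Continuous (fun p : Ω × G K => pure305 (T p.1) (f₀ p.1) (F p.1) p.2) := by
    simpa only [one_mul] using h5
  have h9' : ∀ h : G K, F₁0 h = ∫ ω, pure305 (T ω) (f₀ ω) (F ω) h ∂ν := by
    intro h
    rw [h9 h]
    simp only [one_mul]
  -- the new members are the sums of translates
  have eU : ∀ (ω : Ω) (y : G K'),
      pure305 (T' ω) (repUp970 B T₀ n₀ (φ₀ ω)) (Φ ω) y
        = ∑ x ∈ s', pure305 (T' ω) (φ₀ ω) (Φ ω) (x⁻¹ * y) := by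
    intro ω y
    refine (hs'.rep (T' ω) (φ₀ ω) (Φ ω) (fun v hv w hw => ⟨?_, ?_⟩) y).symm
    · exact ((h1 ω).2.1 w).2 ⟨v, (h1 ω).1 hv, hw⟩
    · exact (h1 ω).2.2.2.1 v hv w hw
  have eD : ∀ (ω : Ω) (y : G K),
      pure305 (T ω) (repDn970 B T₀ b (f₀ ω)) (F ω) y
        = ∑ x ∈ s, β x * pure305 (T ω) (f₀ ω) (F ω) (x⁻¹ * y) := by
    intro ω y
    exact (hs.rep (T ω) (f₀ ω) (F ω) (h1 ω).1 (h1 ω).2.2.1 y).symm
  have eU' : ∀ ω : Ω, pure305 (T' ω) (repUp970 B T₀ n₀ (φ₀ ω)) (Φ ω)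
      = lsum s' (pure305 (T' ω) (φ₀ ω) (Φ ω)) := fun ω => funext fun y => eU ω y
  have eD' : ∀ ω : Ω, pure305 (T ω) (repDn970 B T₀ b (f₀ ω)) (F ω)
      = wsum970 s β (pure305 (T ω) (f₀ ω) (F ω)) := fun ω => funext fun y => eD ω y
  -- integrability in the parameter
  have intU : ∀ z : G K', Integrable (fun ω => pure305 (T' ω) (φ₀ ω) (Φ ω) z) ν := by
    intro z
    have hc : Continuous (fun ω : Ω => pure305 (T' ω) (φ₀ ω) (Φ ω) z) :=
      h4.comp (continuous_id.prodMk continuous_const)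
    exact hc.integrable_of_hasCompactSupport (HasCompactSupport.of_compactSpace _)
  have intD : ∀ z : G K, Integrable (fun ω => pure305 (T ω) (f₀ ω) (F ω) z) ν := by
    intro z
    have hc : Continuous (fun ω : Ω => pure305 (T ω) (f₀ ω) (F ω) z) :=
      h5'.comp (continuous_id.prodMk continuous_const)
    exact hc.integrable_of_hasCompactSupport (HasCompactSupport.of_compactSpace _)
  refine ⟨Ω, iT, iC, iT2, iSC, iM, iB, ν, iF, T, T', fun ω => repUp970 B T₀ n₀ (φ₀ ω), Φ,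
    fun ω => repDn970 B T₀ b (f₀ ω), F, ?_, ?_, ?_, ?_, ?_, ?_, ?_, ?_, ?_⟩
  · -- the local shape
    intro ω
    exact ⟨(h1 ω).1, (h1 ω).2.1, locB_of_locA236 hu hb (h1 ω).2.2⟩
  · -- test functions upstairs
    intro ω
    show T5.IsTestFn _ _ (pure305 (T' ω) (repUp970 B T₀ n₀ (φ₀ ω)) (Φ ω))
    rw [eU' ω]
    exact isTestFn_of_preT236 (h2 ω).ktype
      (isPreT_lsum236 (isPreT_of_test236 (h2 ω)) s' (fun x hx => (hs'.supp x hx).1))
      (hLU _ (h2 ω))
  · -- test functions downstairs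
    intro ω
    show T5.IsTestFn _ _ (fun h => c * pure305 (T ω) (repDn970 B T₀ b (f₀ ω)) (F ω) h)
    have hl : ∀ u : G K, InLevelGroup 𝔫 u → ∀ y : G K,
        c * pure305 (T ω) (repDn970 B T₀ b (f₀ ω)) (F ω) (u * y)
          = c * pure305 (T ω) (repDn970 B T₀ b (f₀ ω)) (F ω) y := by
      intro u hu' y
      rw [hLD (T ω) (φ₀ ω) (Φ ω) (f₀ ω) (F ω) (h1 ω).1 (h1 ω).2.2 u hu' y]
    have hp : IsPreT236 𝔫 (fun h => c * pure305 (T ω) (repDn970 B T₀ b (f₀ ω)) (F ω) h) := by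
      rw [eD' ω]
      exact IsPreT236.smul c
        (isPreT_wsum236 (isPreT_of_test236 (h3' ω)) s β (fun x hx => (hs.supp x hx).1))
    exact isTestFn_of_preT236 (h3' ω).ktype hp hl
  · -- joint continuity upstairs
    have e : (fun p : Ω × G K' => pure305 (T' p.1) (repUp970 B T₀ n₀ (φ₀ p.1)) (Φ p.1) p.2)
        = fun p : Ω × G K' => ∑ x ∈ s', pure305 (T' p.1) (φ₀ p.1) (Φ p.1) (x⁻¹ * p.2) :=
      funext fun p => eU p.1 p.2
    rw [e]
    exact continuous_finsetSum _ fun x _ =>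
      h4.comp (continuous_fst.prodMk (continuous_const.mul continuous_snd))
  · -- joint continuity downstairs
    have e : (fun p : Ω × G K => c * pure305 (T p.1) (repDn970 B T₀ b (f₀ p.1)) (F p.1) p.2)
        = fun p : Ω × G K =>
            c * ∑ x ∈ s, β x * pure305 (T p.1) (f₀ p.1) (F p.1) (x⁻¹ * p.2) :=
      funext fun p => by rw [eD p.1 p.2]
    rw [e]
    exact continuous_const.mul (continuous_finsetSum _ fun x _ =>
      continuous_const.mul
        (h5'.comp (continuous_fst.prodMk (continuous_const.mul continuous_snd))))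
  · -- supports upstairs
    refine ⟨⋃ x ∈ s', (fun y => x * y) '' C',
      s'.isCompact_biUnion fun x _ => hC'.image (continuous_const_mul x), ?_⟩
    intro ω h hne
    rw [eU ω h] at hne
    obtain ⟨x, hx, hxne⟩ := Finset.exists_ne_zero_of_sum_ne_zero hne
    refine Set.mem_biUnion hx ⟨x⁻¹ * h, hC'm ω _ hxne, ?_⟩
    simp
  · -- supports downstairs
    refine ⟨⋃ x ∈ s, (fun y => x * y) '' C,
      s.isCompact_biUnion fun x _ => hC.image (continuous_const_mul x), ?_⟩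
    intro ω h hne
    rw [eD ω h] at hne
    obtain ⟨x, hx, hxne⟩ := Finset.exists_ne_zero_of_sum_ne_zero hne
    refine Set.mem_biUnion hx ⟨x⁻¹ * h, hCm ω _ (right_ne_zero_of_mul hxne), ?_⟩
    simp
  · -- the integral upstairs
    intro h
    show ∑ x ∈ s', Φ₁0 (x⁻¹ * h) = _
    simp only [eU, h8]
    rw [integral_finsetSum _ fun x _ => intU (x⁻¹ * h)]
  · -- the integral downstairs
    intro h
    show c * ∑ x ∈ s, β x * F₁0 (x⁻¹ * h) = _
    simp only [eD, h9']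
    rw [integral_const_mul, integral_finsetSum _ fun x _ => (intD (x⁻¹ * h)).const_mul (β x)]
    congr 1
    refine Finset.sum_congr rfl fun x _ => ?_
    rw [integral_const_mul]

end TwoFields

end Fermat.Agent.LT.T7.H236
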