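/-
Row LT, tower T7, node T7.L2.1.H2a.4 `Pair2Cb970` (sub-architect helper970), leaf 4.6 `ShapeC970`
(registry 2867) -- helper236, SPARE.  OFF-MAIN.  Part C: THE LEFT INVARIANCE of the new members
under the level groups.  Upstairs: the representatives normalise `U(𝔫 𝒪_{K'})` (they are
integral, `inLevelGroup_conj420` of helper420).  Downstairs: componentwise (the partners `b v`
are bi-invariant under `U(m v)`, the Iwahori function under `U(m u)`, `m u ≥ 1`, the spherical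
components under `GL₂(𝒪_v)`: `cartan_mul_mul_h687` of helper687).  Complete proofs.
-/
import Mathlib
import Fermat.Agent.LT.T7.H236.ShapeFinB
import Fermat.Agent.LT.T7.H420.IwTranslCore
import Fermat.Agent.LT.T6.H687.CartanInv

set_option autoImplicit false
set_option linter.unusedSectionVars false
set_option linter.unusedVariables false
set_option linter.style.haveILetI false

open AutomorphicForm IsDedekindDomain NumberField MeasureTheory
open scoped ComplexConjugate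

noncomputable section

namespace Fermat.Agent.LT.T7.H236

open Fermat.Agent.LT.H556 Fermat.Agent.LT.H556.A0 Fermat.Agent.LT Fermat.Agent.LT.T7
open Fermat.Agent.LT.T7.H305 Fermat.Agent.LT.T7.H893 Fermat.Agent.LT.T7.B981
open Fermat.Agent.LT.T7.B970

attribute [local instance] Fermat.Agent.LT.T5.instMeasurableSpaceG

/-! ## 1. Local lemmas -/

section Local

variable {k : Type} [Field k] [Valued k T6.Γ₀]

theorem inU_one236 (n : ℕ) : T6.InU n (1 : GL (Fin 2) k) := by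
  intro i j
  simp

theorem inU_inv236 {n : ℕ} {g : GL (Fin 2) k} (h : T6.InU n g) : T6.InU n g⁻¹ := by
  intro i j
  refine ⟨(h i j).2, ?_⟩
  rw [inv_inv]
  exact (h i j).1

theorem exp_neg_le_one236 (n : ℕ) : (WithZero.exp (-(n : ℤ)) : T6.Γ₀) ≤ 1 := by
  rw [← WithZero.exp_zero, WithZero.exp_le_exp]
  omega

theorem exp_neg_lt_one236 {n : ℕ} (hn : 1 ≤ n) : (WithZero.exp (-(n : ℤ)) : T6.Γ₀) < 1 := by
  rw [← WithZero.exp_zero, WithZero.exp_lt_exp]
  omega

theorem one_entry_le236 (i j : Fin 2) :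
    Valued.v ((1 : Matrix (Fin 2) (Fin 2) k) i j) ≤ (1 : T6.Γ₀) := by
  by_cases hij : i = j
  · subst hij
    rw [Matrix.one_apply_eq, map_one]
  · rw [Matrix.one_apply_ne hij, map_zero]
    exact zero_le

theorem entry_le_of_inU236 {n : ℕ} {g : GL (Fin 2) k} (h : T6.InU n g) (i j : Fin 2) :
    Valued.v ((g : Matrix (Fin 2) (Fin 2) k) i j) ≤ 1 := by
  have e : (g : Matrix (Fin 2) (Fin 2) k) i j
      = ((g : Matrix (Fin 2) (Fin 2) k) i j - (1 : Matrix (Fin 2) (Fin 2) k) i j)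
        + (1 : Matrix (Fin 2) (Fin 2) k) i j := by ring
  rw [e]
  exact (Valuation.map_add _ _ _).trans
    (max_le ((h i j).1.trans (exp_neg_le_one236 n)) (one_entry_le236 i j))

theorem entry10_lt_of_inU236 {n : ℕ} (hn : 1 ≤ n) {g : GL (Fin 2) k} (h : T6.InU n g) :
    Valued.v ((g : Matrix (Fin 2) (Fin 2) k) 1 0) < 1 := by
  have h1 := (h 1 0).1
  rw [Matrix.one_apply_ne (by decide), sub_zero] at h1
  exact lt_of_le_of_lt h1 (exp_neg_lt_one236 hn)

theorem v_mul_le_one236 {x y : k} (hx : Valued.v x ≤ (1 : T6.Γ₀)) (hy : Valued.v y ≤ (1 : T6.Γ₀)) :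
    Valued.v (x * y) ≤ (1 : T6.Γ₀) := by
  rw [map_mul]
  exact mul_le_one' hx hy

theorem v_mul_lt_one236 {x y : k} (hx : Valued.v x < (1 : T6.Γ₀)) (hy : Valued.v y ≤ (1 : T6.Γ₀)) :
    Valued.v (x * y) < (1 : T6.Γ₀) := by
  rw [map_mul]
  calc Valued.v x * Valued.v y ≤ Valued.v x * 1 := mul_le_mul' le_rfl hy
    _ = Valued.v x := mul_one _
    _ < 1 := hx

theorem v_mul_lt_one236' {x y : k} (hx : Valued.v x ≤ (1 : T6.Γ₀)) (hy : Valued.v y < (1 : T6.Γ₀)) :
    Valued.v (x * y) < (1 : T6.Γ₀) := by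
  rw [mul_comm]
  exact v_mul_lt_one236 hy hx

/-- The Iwahori subgroup is stable under left multiplication by `U(n)`, `n ≥ 1`. -/
theorem inIw_mul_left236 {n : ℕ} (hn : 1 ≤ n) {κ x : GL (Fin 2) k} (hκ : T6.InU n κ)
    (hx : InIw893 x) : InIw893 (κ * x) := by
  obtain ⟨h1, h2, h3⟩ := hx
  have hκ' := inU_inv236 hκ
  refine ⟨fun i j => ?_, fun i j => ?_, ?_⟩
  · rw [Units.val_mul, Matrix.mul_apply, Fin.sum_univ_two]
    exact (Valuation.map_add _ _ _).trans
      (max_le (v_mul_le_one236 (entry_le_of_inU236 hκ i 0) (h1 0 j))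
        (v_mul_le_one236 (entry_le_of_inU236 hκ i 1) (h1 1 j)))
  · rw [mul_inv_rev, Units.val_mul, Matrix.mul_apply, Fin.sum_univ_two]
    exact (Valuation.map_add _ _ _).trans
      (max_le (v_mul_le_one236 (h2 i 0) (entry_le_of_inU236 hκ' 0 j))
        (v_mul_le_one236 (h2 i 1) (entry_le_of_inU236 hκ' 1 j)))
  · rw [Units.val_mul, Matrix.mul_apply, Fin.sum_univ_two]
    exact lt_of_le_of_lt (Valuation.map_add _ _ _)
      (max_lt (v_mul_lt_one236 (entry10_lt_of_inU236 hn hκ) (h1 0 0))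
        (v_mul_lt_one236' (entry_le_of_inU236 hκ 1 1) h3))

open Classical in
theorem iwFn_mul_left236 {n : ℕ} (hn : 1 ≤ n) {κ : GL (Fin 2) k} (hκ : T6.InU n κ)
    (x : GL (Fin 2) k) : iwFn893 (κ * x) = iwFn893 x := by
  have hiff : InIw893 (κ * x) ↔ InIw893 x := by
    constructor
    · intro h
      have := inIw_mul_left236 hn (inU_inv236 hκ) h
      rwa [inv_mul_cancel_left] at this
    · exact inIw_mul_left236 hn hκ
  unfold iwFn893
  by_cases h : InIw893 x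
  · rw [if_pos h, if_pos (hiff.2 h)]
  · rw [if_neg h, if_neg (fun h' => h (hiff.1 h'))]

theorem biInv_left236 {n : ℕ} {φ : GL (Fin 2) k → ℂ} (hφ : T6.IsBiInv (T6.InU n) φ)
    {κ : GL (Fin 2) k} (hκ : T6.InU n κ) (x : GL (Fin 2) k) : φ (κ * x) = φ x := by
  have := hφ κ 1 x hκ (inU_one236 n)
  rwa [mul_one] at this

theorem sph_left236 {φ : GL (Fin 2) k → ℂ} {A : (ℤ × ℤ) →₀ ℂ} (hφ : IsSphFn893 φ A)
    {κ : GL (Fin 2) k} (hκ : T6.InU 0 κ) (x : GL (Fin 2) k) : φ (κ * x) = φ x := by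
  rw [hφ.2, hφ.2]
  have := T6.H687.cartan_mul_mul_h687 x hκ (inU_one236 (k := k) 0)
  rw [mul_one] at this
  rw [this]

end Local

/-! ## 2. Adelic lemmas (one field) -/

section OneField

variable {F : Type} [Field F] [NumberField F]

theorem infGL_of_triv236 {u : G F} (hu : ∀ w : InfinitePlace F, TrivAtInf w u)
    (w : InfinitePlace F) : infGL305 w u = 1 := by
  apply Units.ext
  ext i j
  show InfinitePlace.Completion.extensionEmbedding w
    (((u : Matrix (Fin 2) (Fin 2) (Adl F)) i j).1 w) = (1 : Matrix (Fin 2) (Fin 2) ℂ) i j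
  rw [hu w i j]
  by_cases hij : i = j
  · subst hij
    rw [Matrix.one_apply_eq, Matrix.one_apply_eq, map_one]
  · rw [Matrix.one_apply_ne hij, Matrix.one_apply_ne hij, map_zero]

theorem isIntegralAt_mul236 {v : HeightOneSpectrum (𝓞 F)} {a b : G F}
    (ha : IsIntegralAt v a) (hb : IsIntegralAt v b) : IsIntegralAt v (a * b) := by
  intro i j
  rw [H271.finComp_mul271, Matrix.mul_apply, Fin.sum_univ_two]
  exact add_mem (mul_mem (ha i 0) (hb 0 j)) (mul_mem (ha i 1) (hb 1 j))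

theorem outT_level_mul236 {𝔫 : Ideal (𝓞 F)} {u : G F} (hu : InLevelGroup 𝔫 u)
    (T : Finset (HeightOneSpectrum (𝓞 F))) (y : G F) : OutT305 T (u * y) ↔ OutT305 T y := by
  unfold OutT305
  refine forall_congr' fun v => forall_congr' fun _ => ?_
  have hi := H281.isIntegralAt_of_level281 hu v
  constructor
  · rintro ⟨h1, h2⟩
    refine ⟨?_, ?_⟩
    · have := isIntegralAt_mul236 hi.2 h1
      rwa [inv_mul_cancel_left] at this
    · have := isIntegralAt_mul236 h2 hi.1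
      rwa [mul_inv_rev, inv_mul_cancel_right] at this
  · rintro ⟨h1, h2⟩
    refine ⟨isIntegralAt_mul236 hi.1 h1, ?_⟩
    rw [mul_inv_rev]
    exact isIntegralAt_mul236 h2 hi.2

theorem inU_of_level236 {𝔫 : Ideal (𝓞 F)} {m : HeightOneSpectrum (𝓞 F) → ℕ}
    (hm : IsLevelOf893 𝔫 m) {u : G F} (hu : InLevelGroup 𝔫 u) (v : HeightOneSpectrum (𝓞 F)) :
    T6.InU (m v) (finGL305 v u) := by
  intro i j
  refine ⟨(hm v _).1 (hu.2 v i j).1, ?_⟩
  rw [← map_inv]
  exact (hm v _).1 (hu.2 v i j).2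

theorem inU_zero_of_level236 {𝔫 : Ideal (𝓞 F)} {u : G F} (hu : InLevelGroup 𝔫 u)
    (v : HeightOneSpectrum (𝓞 F)) : T6.InU 0 (finGL305 v u) := by
  intro i j
  have e : (WithZero.exp (-((0 : ℕ) : ℤ)) : T6.Γ₀) = 1 := by simp
  rw [e]
  refine ⟨H281.ic_le_one281 𝔫 v (hu.2 v i j).1, ?_⟩
  rw [← map_inv]
  exact H281.ic_le_one281 𝔫 v (hu.2 v i j).2

theorem one_le_level236 {𝔫 : Ideal (𝓞 F)} {m : HeightOneSpectrum (𝓞 F) → ℕ}
    (hm : IsLevelOf893 𝔫 m) {v : HeightOneSpectrum (𝓞 F)} (hv : v.asIdeal ∣ 𝔫) : 1 ≤ m v := by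
  by_contra hcon
  have h0 : m v = 0 := by omega
  have h1 : (1 : v.adicCompletion F) ∈ idealClosure 𝔫 v := by
    rw [hm v 1, h0, map_one]
    simp
  have := H439.ic_lt_one439 hv h1
  rw [map_one] at this
  exact lt_irrefl _ this

/-- A pure tensor is left invariant under an element of the level group if its components at
the places of `T` are left invariant under the components of the element. -/
theorem pure_left_inv236 {𝔫 : Ideal (𝓞 F)} {u : G F} (hu : InLevelGroup 𝔫 u)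
    (T : Finset (HeightOneSpectrum (𝓞 F)))
    (c : ∀ v : HeightOneSpectrum (𝓞 F), GL (Fin 2) (v.adicCompletion F) → ℂ)
    (Φ : InfinitePlace F → GL (Fin 2) ℂ → ℂ)
    (hc : ∀ v ∈ T, ∀ x : GL (Fin 2) (v.adicCompletion F), c v (finGL305 v u * x) = c v x)
    (y : G F) : pure305 T c Φ (u * y) = pure305 T c Φ y := by
  classical
  unfold pure305
  by_cases hO : OutT305 T y
  · rw [if_pos hO, if_pos ((outT_level_mul236 hu T y).2 hO)]
    congr 1
    · refine Finset.prod_congr rfl fun v hv => ?_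
      rw [map_mul, hc v hv]
    · refine Finset.prod_congr rfl fun w _ => ?_
      rw [map_mul, infGL_of_triv236 hu.1 w, one_mul]
  · rw [if_neg hO, if_neg (fun h => hO ((outT_level_mul236 hu T y).1 h))]

end OneField

/-! ## 3. The left invariance of the new members -/

section TwoFields

open Classical

variable {K K' : Type} [Field K] [NumberField K] [Field K'] [NumberField K'] [Algebra K K']

/-- **LEFT-UP.**  The sum of the left translates over the representatives of a function which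
is left invariant under `U(𝔑)` is left invariant under `U(𝔑)`. -/
theorem lsum_left_inv236 {ℓ : ℕ} {B : L2Base K K'} {T₀ : Finset (HeightOneSpectrum (𝓞 K))}
    {n n₀ : HeightOneSpectrum (𝓞 K') → ℕ} {s' : Finset (G K')}
    (hs' : IsWtUp970 ℓ B T₀ n n₀ s') {𝔑 : Ideal (𝓞 K')} (p' : G K' → ℂ)
    (hp : T5.IsTestFn 𝔑 T5.trivType p') (u : G K') (hu : InLevelGroup 𝔑 u) (y : G K') :
    lsum s' p' (u * y) = lsum s' p' y := by
  unfold lsum
  refine Finset.sum_congr rfl fun x hx => ?_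
  have hinf : ∀ w : InfinitePlace K', TrivAtInf w x := (hs'.supp x hx).1
  have hint : ∀ v : HeightOneSpectrum (𝓞 K'), IsIntegralAt v x ∧ IsIntegralAt v x⁻¹ := by
    intro v
    obtain ⟨i, u₀, hi, hu₀, rfl⟩ := hs'.mem x hx
    have h1 := H420W.integral_of_iw420 hi.2.1 hi.2.2 v
    have h2 := H281.isIntegralAt_of_level281 hu₀ v
    refine ⟨isIntegralAt_mul236 h1.1 h2.1, ?_⟩
    rw [mul_inv_rev]
    exact isIntegralAt_mul236 h2.2 h1.2
  have hc := H420W.inLevelGroup_conj420 hinf hint hu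
  have e : x⁻¹ * (u * y) = (x⁻¹ * u * x) * (x⁻¹ * y) := by group
  rw [e, hp.inv.level_left _ hc]

/-- **LEFT-DOWN.**  The pure tensor with the replaced components downstairs is left invariant
under `U(𝔫)`. -/
theorem repDn_left_inv236 {B : L2Base K K'} {g : G K'} {𝔫 : Ideal (𝓞 K)}
    {μc : @Measure (GL (Fin 2) ℂ) (borel _)} {T₀ : Finset (HeightOneSpectrum (𝓞 K))}
    {n n₀ : HeightOneSpectrum (𝓞 K') → ℕ} {m : HeightOneSpectrum (𝓞 K) → ℕ}
    (hlvl : IsLvl981 B 𝔫) (hexp : IsExp981 B 𝔫 T₀ n n₀ m)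
    {b : ∀ v : HeightOneSpectrum (𝓞 K), GL (Fin 2) (v.adicCompletion K) → ℂ}
    (hb : LocFin970 (B.comp 𝔫) (T₀.erase B.u) n m
      (fun w => dblFn893 (n₀ w) (finGL305 w g)) b)
    (T : Finset (HeightOneSpectrum (𝓞 K)))
    (φ₀ : ∀ w : HeightOneSpectrum (𝓞 K'), GL (Fin 2) (w.adicCompletion K') → ℂ)
    (Φ : InfinitePlace K' → GL (Fin 2) ℂ → ℂ)
    (f₀ : ∀ v : HeightOneSpectrum (𝓞 K), GL (Fin 2) (v.adicCompletion K) → ℂ)
    (F : InfinitePlace K → GL (Fin 2) ℂ → ℂ) (hT : T₀ ⊆ T)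
    (hA : LocA893 B 𝔫 μc T₀ n m T φ₀ Φ f₀ F)
    (u : G K) (hu : InLevelGroup 𝔫 u) (y : G K) :
    pure305 T (repDn970 B T₀ b f₀) F (u * y) = pure305 T (repDn970 B T₀ b f₀) F y := by
  have huT : B.u ∈ T₀ := (hexp.mem B.u).2 hlvl.u_level
  obtain ⟨-, -, hsph, -⟩ := hA
  refine pure_left_inv236 hu T _ F (fun v hv x => ?_) y
  by_cases hvu : v = B.u
  · subst hvu
    rw [repDn_u236]
    exact iwFn_mul_left236 (one_le_level236 hexp.lvl hlvl.u_level)
      (inU_of_level236 hexp.lvl hu B.u) x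
  · by_cases hvT : v ∈ T₀
    · have hve : v ∈ T₀.erase B.u := Finset.mem_erase.2 ⟨hvu, hvT⟩
      rw [repDn_bad236 B T₀ b f₀ hve]
      exact biInv_left236 (hb.inv_down v hve).1 (inU_of_level236 hexp.lvl hu v) x
    · rw [repDn_out236 B T₀ b f₀ huT hvT]
      obtain ⟨A, Av, h1, -⟩ := hsph v hv hvT
      exact sph_left236 h1 (inU_zero_of_level236 hu v) x

/-- **THE FINITE STEP, unconditional.** -/
theorem shapeFin236 {ℓ : ℕ} {B : L2Base K K'} {g : G K'} {𝔫 : Ideal (𝓞 K)}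
    {μc : @Measure (GL (Fin 2) ℂ) (borel _)} {T₀ : Finset (HeightOneSpectrum (𝓞 K))}
    {n n₀ : HeightOneSpectrum (𝓞 K') → ℕ} {m : HeightOneSpectrum (𝓞 K) → ℕ}
    (hlvl : IsLvl981 B 𝔫) (hexp : IsExp981 B 𝔫 T₀ n n₀ m)
    {s' : Finset (G K')} (hs' : IsWtUp970 ℓ B T₀ n n₀ s')
    {s : Finset (G K)} {β : G K → ℂ}
    {b : ∀ v : HeightOneSpectrum (𝓞 K), GL (Fin 2) (v.adicCompletion K) → ℂ}
    (hb : LocFin970 (B.comp 𝔫) (T₀.erase B.u) n m
      (fun w => dblFn893 (n₀ w) (finGL305 w g)) b)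
    (hs : IsWtDown970 B T₀ m s β b)
    {Φ₁0 : G K' → ℂ} {F₁0 : G K → ℂ}
    (hA : IsAvgPure (upI (K' := K') 𝔫) 𝔫 T₀ (LocA893 B 𝔫 μc T₀ n m) 1 Φ₁0 F₁0) (c : ℂ) :
    IsAvgPure (upI (K' := K') 𝔫) 𝔫 T₀ (LocB893b B g 𝔫 μc T₀ n n₀ m) c
      (lsum s' Φ₁0) (fun h => c * wsum970 s β F₁0 h) :=
  isAvgPure_rep236 ((hexp.mem B.u).2 hlvl.u_level) hs' hb hs
    (fun p' hp u hu y => lsum_left_inv236 hs' p' hp u hu y)
    (fun T φ₀ Φ f₀ F hT hL u hu y => repDn_left_inv236 hlvl hexp hb T φ₀ Φ f₀ F hT hL u hu y)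
    hA c

end TwoFields

end Fermat.Agent.LT.T7.H236
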