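/-
Row LT, tower T7, node T7.L2.1.H2a.4 `Pair2Cb970` (sub-architect helper970), leaf 4.6 `ShapeC970`
[XL] (registry 2867) -- helper236, SPARE.  OFF-MAIN.

    shapeC236 (K K') : B970.ShapeC970 K K'

VERBATIM against `LT/T7/B970/Pair2Spec.lean` (helper970@c68ed6767, sha256 fab97cea),
UNCONDITIONAL.

Proof.  (1) THE FINITE STEP `shapeFin236` (`ShapeFinA/B/C.lean`, this seat): the pair
`(lsum s' Φ₁0, c · wsum970 s β F₁0)` is an average of pure tensors over the parameter space of
the first pair, with the replaced components `repUp970`, `repDn970` (the clause `rep` of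
`IsWtUp970`, `IsWtDown970`) and the local shape `LocB893b`; the new members are test functions:
left invariance upstairs because the representatives normalise the level group, downstairs
componentwise.  (2) THE NATURAL-AVERAGE STEP of helper193 (`T7/H193/NatStepShape.lean`
`isAvgPure_nat193`, `T7/H193/NatStep.lean` `isShiftStable_locB893b193`), byte-identical copies.
-/
import Mathlib
import Fermat.Agent.LT.T7.H236.ShapeFinC
import Fermat.Agent.LT.T7.H193.NatStep

set_option autoImplicit false
set_option linter.unusedSectionVars false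
set_option linter.unusedVariables false
set_option linter.style.haveILetI false

open AutomorphicForm IsDedekindDomain NumberField MeasureTheory
open scoped ComplexConjugate

noncomputable section

namespace Fermat.Agent.LT.T7.H236

open Fermat.Agent.LT.H556 Fermat.Agent.LT.H556.A0 Fermat.Agent.LT Fermat.Agent.LT.T7
open Fermat.Agent.LT.T7.H305 Fermat.Agent.LT.T7.H893 Fermat.Agent.LT.T7.B981
open Fermat.Agent.LT.T7.B970

attribute [local instance] Fermat.Agent.LT.T5.instMeasurableSpaceG

open Classical in
/-- **LEAF T7.L2.1.H2a.4.6 `ShapeC970`.** -/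
theorem shapeC236 (K K' : Type) [Field K] [NumberField K] [Field K'] [NumberField K']
    [Algebra K K'] : ShapeC970 K K' := by
  intro ℓ hcyc hℓ htot Φ hΦ hconst B hB hram g hg 𝔫 hlvl μc hμ T₀ n n₀ m hexp a D a' D' hrel
    s' hs' s β b hb hs c₁ Φ₁ F₁ hp1 hA c
  have hfin := shapeFin236 (g := g) hlvl hexp hs' hb hs hA c
  have hcont : Continuous (fun h => c * wsum970 s β (F₁ []) h) :=
    (IsPreT236.smul c (isPreT_wsum236
      (isPreT_of_test236 (hp1.dn1_test [] (by simp))) s β
      (fun x hx => (hs.supp x hx).1))).cont
  have hnat := H193.isAvgPure_nat193 hrel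
    (fun T φ₀' Φ' f₀' F hL t' =>
      H193.isShiftStable_locB893b193 ℓ hcyc htot Φ B hB g 𝔫 μc hμ T₀ n n₀ m T φ₀' Φ' f₀' F hL t')
    hcont hfin
  have e : H193.nat193 a D (fun h => c * wsum970 s β (F₁ []) h)
      = fun h => c * H193.nat193 a D (wsum970 s β (F₁ [])) h := by
    funext h
    unfold H193.nat193
    rw [integral_const_mul]
    ring
  rw [e] at hnat
  exact hnat

end Fermat.Agent.LT.T7.H236
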